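import Fermat.Agent.S59.LGC.DefsFL
import Fermat.Agent.FL.H36_Final
import Fermat.Agent.FL.H2_Level
import Fermat.Agent.S19.H32_AsmC

/-!
# S59, case C, LGC-p, leaf LGC-FL (helper36): the finite flat coordinates with the reduction
clause

* `stmt_FLAbsK1 : Stmt_FLAbsK1` : the abstract main theorem of G-FL with the clause
  `RedZero S (x - y) → v (h j x - h j y) < 1`.
  [`cls_eq_of_redZero` : points whose difference reduces to zero have the same class;
   `map_rc_M_eq_of_cls_eq`, `rc_gen_eq_of_cls_eq` : the reductions of the echelon bases and of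
   the generators depend only on the class.]
* `stmt_FLTameCK1 : Stmt_FLTameCK1` : the same at the tame levels, clause for `BAD.InK1`
  (`redZero_of_inK1`).
* `stmt_FLGenCoreK1 : Stmt_FLGenCoreK1` : local generators of `J₀(N)[ℓ^k]` at EVERY place over
  `ℓ ∤ N` with the clause (`inK1_levelPull` : the change of level preserves `K1`).
-/

set_option autoImplicit false
set_option linter.style.haveILetI false
set_option linter.unusedSectionVars false
set_option linter.unusedVariables false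
set_option synthInstance.maxHeartbeats 400000
set_option maxHeartbeats 1000000

noncomputable section

open AlgebraicCurve ModularCurve Matrix

namespace Fermat.Agent.S59.LGC.H36

open Fermat.Agent.FL Fermat.Agent.RED Fermat.Agent.RED.H17 Fermat.Agent.Lib.HopfOrder
  Fermat.Agent.Lib.HopfOrderLoc Fermat.Agent.S59.LGC

local notation "L" => riemannRochSpace

/-! ### The abstract main theorem -/

section Abs

variable {K F k F' : Type} [Field K] [Field F] [Algebra K F] [Field k] [Field F']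
  [Algebra k F'] {S : RedSetup K F k F'} {Γ : Type} [Group Γ] {G : GalRed S Γ}
  {𝒯 : Set (Pic0 K F)} (CS : CoordSys S G 𝒯)

/-- The reductions of the echelon bases depend only on the class. -/
theorem map_rc_M_eq_of_cls_eq (x y : 𝒯) (h : CS.cls x = CS.cls y) :
    (CS.M x).map (rc S) = (CS.M y).map (rc S) := by
  obtain ⟨hx1, -, -, hx4⟩ := CS.hM x
  obtain ⟨hy1, -, -, hy4⟩ := CS.hM y
  have h' : Finsupp.mapDomain S.r (CS.E x) = Finsupp.mapDomain S.r (CS.E y) := h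
  have hJ : CS.J (Finsupp.mapDomain S.r (CS.E x)) = CS.J (Finsupp.mapDomain S.r (CS.E y)) :=
    congrArg CS.J h'
  refine Fermat.Agent.FL.H2.ech_unique (CS.J (Finsupp.mapDomain S.r (CS.E x))) _ _ ?_ ?_ ?_
  · intro a b
    rw [Matrix.map_apply, hx1 a b]
    split_ifs
    · exact Fermat.Agent.FL.H46.rc_one S
    · exact Fermat.Agent.FL.H46.rc_zero S
  · intro a b
    rw [hJ, Matrix.map_apply, hy1 a b]
    split_ifs
    · exact Fermat.Agent.FL.H46.rc_one S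
    · exact Fermat.Agent.FL.H46.rc_zero S
  · rw [hx4, hy4, Fermat.Agent.FL.H36.mapDomain_sub', Fermat.Agent.FL.H36.mapDomain_sub', h']

/-- The reductions of the generators depend only on the class. -/
theorem rc_gen_eq_of_cls_eq (𝒮 : Set (Pic0 K F)) (h𝒮 : 𝒮 ⊆ 𝒯) (x y : 𝒮)
    (h : CS.cls ⟨x, h𝒮 x.2⟩ = CS.cls ⟨y, h𝒮 y.2⟩) (j : 𝒯 ⊕ (𝒯 × Fin CS.n₁ × Fin CS.d)) :
    rc S (CS.gen 𝒮 h𝒮 j x) = rc S (CS.gen 𝒮 h𝒮 j y) := by
  classical
  rcases j with x₀ | ⟨x₀, i, b⟩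
  · simp only [CoordSys.gen]
    rw [h]
  · simp only [CoordSys.gen]
    rw [h]
    split_ifs
    · have h1 := map_rc_M_eq_of_cls_eq CS _ _ h
      have h2 := congrFun (congrFun h1 i) b
      rwa [Matrix.map_apply, Matrix.map_apply] at h2
    · rfl

/-- Two points whose difference reduces to zero have the same class. -/
theorem cls_eq_of_redZero [IsAlgClosed k] (hFF' : IsFF k F') (x y : 𝒯)
    (h : RedZero S ((x : Pic0 K F) - (y : Pic0 K F))) : CS.cls x = CS.cls y := by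
  obtain ⟨D₀, hD₀, hr₀⟩ := h
  obtain ⟨Dx, hDx, hDx'⟩ := CS.mkE x
  obtain ⟨Dy, hDy, hDy'⟩ := CS.mkE y
  have H' := Fermat.Agent.S17.H35.hyp_of_isFF k F' hFF'
  -- `Dx - Dy - D₀` is principal
  have h1 : (Dx - Dy) - D₀ ∈ (Divisor.principal (K := K) (F := F)).addSubgroupOf
      (Divisor.degZero (K := K) (F := F)) := by
    refine QuotientAddGroup.eq_iff_sub_mem.mp ?_
    show Pic0.mk (Dx - Dy) = Pic0.mk D₀
    rw [hD₀, ← hDx, ← hDy]
    rfl
  rw [AddSubgroup.mem_addSubgroupOf] at h1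
  obtain ⟨f₁, hf₁, hdiv₁⟩ := h1
  obtain ⟨g₁, hg₁, hr₁⟩ := Fermat.Agent.FL.H60.exists_rd_principal S hf₁ hdiv₁
  have hxpos : 0 ≤ Finsupp.mapDomain S.r (CS.E x) := by
    rw [Finsupp.le_def]
    intro Q
    have h0 := (CS.hE x).1
    rw [Finsupp.le_def] at h0
    exact mapDomain_nonneg' S.r (fun a => by simpa using h0 a) Q
  have hypos : 0 ≤ Finsupp.mapDomain S.r (CS.E y) := by
    rw [Finsupp.le_def]
    intro Q
    have h0 := (CS.hE y).1
    rw [Finsupp.le_def] at h0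
    exact mapDomain_nonneg' S.r (fun a => by simpa using h0 a) Q
  have key : ∀ Q : Place k F',
      (Finsupp.mapDomain S.r (CS.E x) - Finsupp.mapDomain S.r (CS.E y)) Q = Q.ord g₁ := by
    intro Q
    rw [← hr₁ Q]
    have e : CS.E x - CS.E y
        = (((Dx - Dy - D₀ : Divisor.degZero (K := K) (F := F)) : Divisor K F))
          + (D₀ : Divisor K F) := by
      rw [AddSubgroup.coe_sub, AddSubgroup.coe_sub, hDx', hDy']
      abel
    rw [← Fermat.Agent.FL.H36.mapDomain_sub', e, Finsupp.mapDomain_add, hr₀, add_zero]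
  exact Fermat.Agent.FL.H2.eq_of_principal_of_finrank_le_one H' hypos hxpos hg₁ key
    (le_of_eq (CS.ns y))

end Abs

/-- **The abstract main theorem of G-FL with the reduction clause.** -/
theorem stmt_FLAbsK1 : Stmt_FLAbsK1 := by
  intro K F k F' _ _ _ _ _ _ _ _ S hFF hFF' hG Γ _ G hU hFr 𝒮 hfin hstab
  have hTfin : (Fermat.Agent.FL.H36.sumSet 𝒮).Finite := Fermat.Agent.FL.H36.finite_sumSet hfin
  have hTstab : ∀ (σ : Γ), ∀ x ∈ Fermat.Agent.FL.H36.sumSet 𝒮,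
      G.act σ • x ∈ Fermat.Agent.FL.H36.sumSet 𝒮 := by
    rintro σ x (hx | ⟨a, ha, b, hb, rfl⟩)
    · exact Or.inl (hstab σ x hx)
    · rw [smul_add]
      exact Fermat.Agent.FL.H36.add_mem_sumSet 𝒮 (hstab σ a ha) (hstab σ b hb)
  obtain ⟨CS⟩ := Fermat.Agent.FL.H36.stmt_Setup K F k F' S hFF hFF' hG Γ G hU hFr
    (Fermat.Agent.FL.H36.sumSet 𝒮) hTfin hTstab
  have hsub := Fermat.Agent.FL.H36.subset_sumSet 𝒮
  obtain ⟨hint, heq, hsep⟩ := Fermat.Agent.FL.H2.stmt_Basic K F k F' S hFF hFF' Γ G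
    (Fermat.Agent.FL.H36.sumSet 𝒮) CS 𝒮 hsub
  have : Finite ↥(Fermat.Agent.FL.H36.sumSet 𝒮) := hTfin.to_subtype
  refine ⟨_, inferInstance, CS.gen 𝒮 hsub, hint, heq, ?_, hsep, ?_, ?_⟩
  · exact Fermat.Agent.FL.H21.stmt_DStab_of_famAdd Fermat.Agent.FL.H46.stmt_FamAdd K F k F' S
      hFF hFF' Γ G (Fermat.Agent.FL.H36.sumSet 𝒮) hTfin hTstab CS 𝒮 hsub hstab
  · exact Fermat.Agent.FL.H40.stmt_Comul_of Fermat.Agent.FL.H46.stmt_FamAdd
      Fermat.Agent.FL.H60.stmt_RedLinEq Fermat.Agent.FL.H46.stmt_EchUnique K F k F' S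
      hFF hFF' Γ G (Fermat.Agent.FL.H36.sumSet 𝒮) hTfin CS 𝒮 hsub
      (fun x hx y hy => Fermat.Agent.FL.H36.add_mem_sumSet 𝒮 hx hy)
  · intro x y hxy j
    exact Fermat.Agent.FL.H46.val_sub_lt_of_rc_eq S (hint j x) (hint j y)
      (rc_gen_eq_of_cls_eq CS 𝒮 hsub x y
        (cls_eq_of_redZero CS hFF' ⟨x, hsub x.2⟩ ⟨y, hsub y.2⟩ hxy) j)

/-! ### The tame levels -/

section Tame

open Fermat.Agent.S28 Fermat.Agent.S28.H73 Fermat.Agent.RED.H73 Fermat.Agent.RED.H33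
  Fermat.Agent.FL.H33

variable (M ℓ : ℕ) [NeZero M] (hℓ : ℓ.Prime) (hM : ¬ ℓ ∣ M)
  (htame : 5 ≤ ℓ ∨ (ℓ = 3 ∧ 2 ∣ M) ∨ (ℓ = 2 ∧ 3 ∣ M))
  (A : ValuationSubring (AlgebraicClosure ℚ)) (hA : A.LiesOverPrime ℓ)

/-- A class of `K1(n)`, `n ≠ 0`, has a representative with reduction `0`. -/
theorem redZero_of_inK1 {n : ℕ} (hn : n ≠ 0) {z : JZero M}
    (h : Fermat.Agent.BAD.InK1 A M n z) :
    RedZero (tameSetup M ℓ hℓ hM htame A hA) z := by
  obtain ⟨D, f, rfl, hres, hD⟩ := h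
  refine ⟨D, rfl, ?_⟩
  have e : (tameSetup M ℓ hℓ hM htame A hA).red f = 1 := hres
  have hne : (tameSetup M ℓ hℓ hM htame A hA).red f ≠ 0 := by
    rw [e]
    exact one_ne_zero
  have hDI := (tameSetup M ℓ hℓ hM htame A hA).DI f hne
    ((n : ℤ) • (D : Divisor (AlgebraicClosure ℚ) ↥(modularFunctionFieldBar M)))
    (fun P => by
      rw [Finsupp.smul_apply, smul_eq_mul]
      exact hD P)
  ext Q
  have h1 := hDI Q
  rw [e, Place.ord_one, Finsupp.mapDomain_smul, Finsupp.smul_apply, smul_eq_mul] at h1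
  have hnZ : (n : ℤ) ≠ 0 := by exact_mod_cast hn
  rcases mul_eq_zero.1 h1 with h2 | h2
  · exact absurd h2 hnZ
  · rw [h2]
    rfl

end Tame

/-- **The concrete main theorem of G-FL at the tame levels with the reduction clause.** -/
theorem stmt_FLTameCK1 : Stmt_FLTameCK1 := by
  intro M ℓ _ hℓ hM htame A hA 𝒮 hfin hst
  haveI : IsAlgClosed (Fermat.Agent.S28.H73.kV A) := Fermat.Agent.RED.H73.isAlgClosed_kV A
  obtain ⟨ι, hι, h, h1, h2, h3, h4, h5, h6⟩ :=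
    stmt_FLAbsK1 (AlgebraicClosure ℚ) ↥(modularFunctionFieldBar M) (Fermat.Agent.S28.H73.kV A)
      ↥(Fermat.Agent.RED.H73.redField A (modularFunctionFieldBar M)
        (Fermat.Agent.RED.H73.hasScale_laurentBaseChange A M))
      (Fermat.Agent.FL.H33.tameSetup M ℓ hℓ hM htame A hA)
      (Fermat.Agent.FL.H33.isFF_bar M) (Fermat.Agent.FL.H33.isFF_tame M ℓ hℓ hM A hA)
      (Fermat.Agent.FL.H33.tameSetup_genusLE' M ℓ hℓ hM htame A hA)
      ↥(A.decompositionSubgroup ℚ) (Fermat.Agent.FL.H33.tameCtx M ℓ hℓ hM htame A hA)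
      (Fermat.Agent.FL.H33.hasUnrConst_tame M ℓ hℓ hM htame A hA)
      (Fermat.Agent.FL.H22.stmt_TameFrames M ℓ hℓ hM htame A hA)
      𝒮 hfin (fun σ x hx => hst σ.1 σ.2 x hx)
  have hcv : constVal (Fermat.Agent.FL.H33.tameSetup M ℓ hℓ hM htame A hA) = A :=
    Fermat.Agent.FL.H33.constVal_tameSetup M ℓ hℓ hM htame A hA
  refine ⟨ι, hι, h, ?_, ?_, ?_, h4, ?_, ?_⟩
  · intro j x
    have := h1 j x
    rwa [hcv] at this
  · intro j σ hσ x hx
    have hdec : σ ∈ A.decompositionSubgroup ℚ := by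
      obtain ⟨g, -, rfl⟩ := hσ
      exact g.2
    have hI : (⟨σ, hdec⟩ : ↥(A.decompositionSubgroup ℚ)) ∈
        (Fermat.Agent.FL.H33.tameCtx M ℓ hℓ hM htame A hA).I :=
      (Fermat.Agent.FL.H33.mem_tameCtx_I_iff M ℓ hℓ hM htame A hA ⟨σ, hdec⟩).mpr hσ
    exact h2 j ⟨σ, hdec⟩ hI x hx
  · intro j σ hσ
    obtain ⟨φ, hφ, hφx⟩ := h3 j ⟨σ, hσ⟩
    refine ⟨φ, ?_, fun x hx => hφx x hx⟩
    rwa [hcv] at hφ
  · intro j
    obtain ⟨φ, hφ, hφx⟩ := h5 j
    refine ⟨φ, ?_, hφx⟩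
    rwa [hcv] at hφ
  · intro x y n hn hK j
    have := h6 x y (redZero_of_inK1 M ℓ hℓ hM htame A hA hn hK) j
    rwa [hcv] at this

/-! ### Change of level and the torsion subgroups -/

section Level

open Fermat.Agent.Lib.HeckeComm Fermat.Agent.NEB.H14 Fermat.Agent.BAD
  Fermat.Agent.S28.H73 Fermat.Agent.RED.H73

variable (N M : ℕ) [NeZero N] [NeZero M] (h : N ∣ M)

/-- The change of level preserves `K1`. -/
theorem inK1_levelPull (A : ValuationSubring (AlgebraicClosure ℚ)) (n : ℕ) {x : JZero N}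
    (hx : InK1 A N n x) : InK1 A M n (Fermat.Agent.FL.H2.levelPull N M h x) := by
  obtain ⟨D, f, rfl, hres, hD⟩ := hx
  have hF := H95.stmt_HKA_isFF N
  have hF' := H95.stmt_HKA_isFF M
  have hf0 : ((f : ↥(gaussV A N)) : ↥(FNbar N)) ≠ 0 := by
    intro h0
    have e : f = 0 := Subtype.ext h0
    rw [e, map_zero] at hres
    exact zero_ne_one hres
  have hco : ((inclFN N M h (f : ↥(FNbar N)) : ↥(FNbar M)) : LaurentSeries (AlgebraicClosure ℚ))
      = (((f : ↥(gaussV A N)) : ↥(FNbar N)) : LaurentSeries (AlgebraicClosure ℚ)) :=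
    coe_inclFN N M h _
  have hmem : inclFN N M h (f : ↥(FNbar N)) ∈ gaussV A M := by
    show ((inclFN N M h (f : ↥(FNbar N)) : ↥(FNbar M)) : LaurentSeries (AlgebraicClosure ℚ))
      ∈ gaussRingV A
    rw [hco]
    exact f.2
  refine ⟨degZeroMap (pullD (inclFN N M h)) (isCorr_pullD hF hF' _).isGood D,
    ⟨inclFN N M h (f : ↥(FNbar N)), hmem⟩, Fermat.Agent.FL.H2.levelPull_mk N M h D, ?_, ?_⟩
  · apply Subtype.ext
    have h1 : ((gaussRes A N f : ↥(redField A (FNbar N) (hasScale_laurentBaseChange A N))) :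
        LaurentSeries (kV A)) = 1 := by
      rw [hres]
      rfl
    show gaussRedV A ⟨((inclFN N M h (f : ↥(FNbar N)) : ↥(FNbar M)) :
      LaurentSeries (AlgebraicClosure ℚ)), hmem⟩ = 1
    have h2 : gaussRedV A ⟨(((f : ↥(gaussV A N)) : ↥(FNbar N)) :
        LaurentSeries (AlgebraicClosure ℚ)), f.2⟩ = 1 := h1
    rw [← h2]
    congr 1
  · intro P
    rw [coe_degZeroMap]
    exact pullD_kummer hF hF' (inclFN N M h) (n : ℤ) _ hf0 hD P

end Level

/-- **Local generators of `J₀(N)[ℓ^k]` at every place over `ℓ ∤ N`, with the reduction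
clause.** -/
theorem stmt_FLGenCoreK1 : Stmt_FLGenCoreK1 := by
  intro p _ ℓ _ hℓp k A hA
  have hℓ : ℓ.Prime := Fact.out
  obtain ⟨M, hM0, hpM, hM36, hℓM, htame⟩ :=
    Fermat.Agent.S19.H32.exists_tame_level p ℓ (NeZero.ne p) hℓ hℓp
  haveI : NeZero M := ⟨hM0⟩
  set π : JZero p →+ JZero M := Fermat.Agent.FL.H2.levelPull p M hpM with hπ
  have hπσ : ∀ (σ : AlgebraicClosure ℚ ≃ₐ[ℚ] AlgebraicClosure ℚ) (x : JZero p),
      π (σ • x) = σ • π x := Fermat.Agent.FL.H2.levelPull_smul p M hpM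
  have hπinj : ∀ m : ℕ, 0 < m → ∀ x : JZero p, m • x = 0 → π x = 0 → x = 0 :=
    fun m hm x hmx hx =>
      Fermat.Agent.FL.H2.levelPull_injective_of_torsion p M hpM hM36 m hm x hmx hx
  have hn : ((ℓ : ℤ) ^ k) ≠ 0 := pow_ne_zero _ (by exact_mod_cast hℓ.ne_zero)
  haveI := Fermat.Agent.S19.H32.tors_finite p ((ℓ : ℤ) ^ k) hn
  set 𝒮 : Set (JZero M) :=
    Set.range fun x : Fermat.Agent.S19.Tors p ((ℓ : ℤ) ^ k) => π (x : JZero p) with h𝒮
  have hfin : 𝒮.Finite := Set.finite_range _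
  have hact : ∀ (σ : Fermat.Agent.S19.GQ) (x : Fermat.Agent.S19.Tors p ((ℓ : ℤ) ^ k)),
      π ((Fermat.Agent.S19.torsAct p ((ℓ : ℤ) ^ k) σ x : Fermat.Agent.S19.Tors p ((ℓ : ℤ) ^ k))
        : JZero p) = σ • π (x : JZero p) := fun σ x => hπσ σ (x : JZero p)
  have hst : ∀ σ ∈ A.decompositionSubgroup ℚ, ∀ x ∈ 𝒮, σ • x ∈ 𝒮 := by
    rintro σ - _ ⟨x, rfl⟩
    exact ⟨Fermat.Agent.S19.torsAct p ((ℓ : ℤ) ^ k) σ x, hact σ x⟩
  obtain ⟨ι, hι, h, hint, heq, hD, hsep, hcom, hred⟩ :=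
    stmt_FLTameCK1 M ℓ hℓ hℓM htame A hA 𝒮 hfin hst
  set E : Fermat.Agent.S19.Tors p ((ℓ : ℤ) ^ k) → 𝒮 :=
    fun x => ⟨π (x : JZero p), x, rfl⟩ with hE
  have hEinj : Function.Injective E := by
    intro x y hxy
    have h1 : π (x : JZero p) = π (y : JZero p) := congrArg Subtype.val hxy
    have h2 : π ((x - y : Fermat.Agent.S19.Tors p ((ℓ : ℤ) ^ k)) : JZero p) = 0 := by
      rw [Submodule.coe_sub, map_sub, h1, sub_self]
    have h3 : (ℓ ^ k) • ((x - y : Fermat.Agent.S19.Tors p ((ℓ : ℤ) ^ k)) : JZero p) = 0 := by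
      have := (Submodule.mem_torsionBy_iff _ _).mp (x - y).2
      rw [← natCast_zsmul]
      push_cast
      exact this
    have h4 := hπinj (ℓ ^ k) (pow_pos hℓ.pos k) _ h3 h2
    exact sub_eq_zero.mp (Subtype.ext h4)
  have hEact : ∀ (σ : Fermat.Agent.S19.GQ) (x : Fermat.Agent.S19.Tors p ((ℓ : ℤ) ^ k))
      (hx : σ • ((E x : 𝒮) : JZero M) ∈ 𝒮),
      E (Fermat.Agent.S19.torsAct p ((ℓ : ℤ) ^ k) σ x) = ⟨σ • ((E x : 𝒮) : JZero M), hx⟩ :=
    fun σ x hx => Subtype.ext (hact σ x)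
  have hEadd : ∀ (x y : Fermat.Agent.S19.Tors p ((ℓ : ℤ) ^ k))
      (hxy : ((E x : 𝒮) : JZero M) + ((E y : 𝒮) : JZero M) ∈ 𝒮),
      E (x + y) = ⟨((E x : 𝒮) : JZero M) + ((E y : 𝒮) : JZero M), hxy⟩ :=
    fun x y hxy => Subtype.ext (by
      show π ((x + y : Fermat.Agent.S19.Tors p ((ℓ : ℤ) ^ k)) : JZero p)
        = π (x : JZero p) + π (y : JZero p)
      rw [Submodule.coe_add, map_add])
  have hmemE : ∀ (σ : Fermat.Agent.S19.GQ) (x : Fermat.Agent.S19.Tors p ((ℓ : ℤ) ^ k)),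
      σ • ((E x : 𝒮) : JZero M) ∈ 𝒮 :=
    fun σ x => ⟨Fermat.Agent.S19.torsAct p ((ℓ : ℤ) ^ k) σ x, hact σ x⟩
  have haddE : ∀ (x y : Fermat.Agent.S19.Tors p ((ℓ : ℤ) ^ k)),
      ((E x : 𝒮) : JZero M) + ((E y : 𝒮) : JZero M) ∈ 𝒮 :=
    fun x y => ⟨x + y, by
      show π ((x + y : Fermat.Agent.S19.Tors p ((ℓ : ℤ) ^ k)) : JZero p)
        = π (x : JZero p) + π (y : JZero p)
      rw [Submodule.coe_add, map_add]⟩
  refine ⟨ι, hι, fun j x => h j (E x), fun j x => hint j _, ?_, ?_, ?_, ?_, ?_⟩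
  · intro j σ hσ x
    show h j (E (Fermat.Agent.S19.torsAct p ((ℓ : ℤ) ^ k) σ x)) = σ (h j (E x))
    rw [hEact σ x (hmemE σ x)]
    exact heq j σ hσ (E x) (hmemE σ x)
  · intro j σ hσ
    obtain ⟨φ, hφ, hφe⟩ := hD j σ hσ
    have key : twist (Fermat.Agent.S19.torsAct p ((ℓ : ℤ) ^ k)) σ (fun x => h j (E x))
        = fun x => φ (E x) := by
      funext x
      show σ (h j (E (Fermat.Agent.S19.torsAct p ((ℓ : ℤ) ^ k) σ⁻¹ x))) = φ (E x)
      have hx : x = Fermat.Agent.S19.torsAct p ((ℓ : ℤ) ^ k) σ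
          (Fermat.Agent.S19.torsAct p ((ℓ : ℤ) ^ k) σ⁻¹ x) := by
        rw [← Fermat.Agent.S19.H32.torsAct_mul, mul_inv_cancel, Fermat.Agent.S19.H32.torsAct_one]
      have h1 := hφe (E (Fermat.Agent.S19.torsAct p ((ℓ : ℤ) ^ k) σ⁻¹ x)) (hmemE σ _)
      rw [← hEact σ _ (hmemE σ _), ← hx] at h1
      exact h1.symm
    rw [key]
    exact Fermat.Agent.S19.H32.comp_mem_genRing A.toSubring h E hφ
  · intro x y hxy
    exact hsep (E x) (E y) (hEinj.ne hxy)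
  · intro j
    obtain ⟨φ, hφ, hφe⟩ := hcom j
    have key : (fun q : Fermat.Agent.S19.Tors p ((ℓ : ℤ) ^ k) ×
        Fermat.Agent.S19.Tors p ((ℓ : ℤ) ^ k) => h j (E (q.1 + q.2))) =
        fun q => φ (E q.1, E q.2) := by
      funext q
      rw [hφe (E q.1) (E q.2) (haddE q.1 q.2), hEadd q.1 q.2 (haddE q.1 q.2)]
    rw [key]
    exact Fermat.Agent.S19.H32.comp_mem_pairRing A.toSubring h E hφ
  · intro x y hK j
    have h1 := inK1_levelPull p M hpM A (ℓ ^ k) hK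
    have h2 : Fermat.Agent.FL.H2.levelPull p M hpM ((x : JZero p) - (y : JZero p))
        = ((E x : 𝒮) : JZero M) - ((E y : 𝒮) : JZero M) := map_sub _ _ _
    rw [h2] at h1
    exact hred (E x) (E y) (ℓ ^ k) (pow_ne_zero _ hℓ.ne_zero) h1 j

end Fermat.Agent.S59.LGC.H36
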