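import Fermat.Agent.S59.LGC.DefsHopf
import Fermat.Agent.Lib.HopfOrderLoc.LocalGen

/-!
# S59, case C, LGC-p, leaf NUQ-a (helper38): the finite flat model with the reduction clause

`hopfK1_of : Stmt_FLGenCoreK1 → Stmt_HopfK1`.

* `genRing_sub_lt` : the reduction clause passes from the generators `h j` to `genRing A h`.
* `exists_genData` : the proof of `Lib.HopfOrderLoc.localGen_of` with the global generators `F i`
  (elements of `genRing A h` fixed by `G_ℚ`) exposed.
* `exists_hopf_of_isHopfOrder` : the proof of `Lib.HopfOrder.absFlat_of_isHopfOrder` with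
  `he : f.ofConv = ev (e f)` and `algebraMap (counit a) = ev 0 a` exposed.
-/

set_option autoImplicit false
set_option linter.style.haveILetI false
set_option linter.unusedSectionVars false
set_option linter.unusedVariables false

open scoped TensorProduct
open WithConv

namespace Fermat.Agent.S59.LGC.H38

open Fermat.Agent.Lib.FrobExists Fermat.Agent.Lib.InertiaBridge Fermat.Agent.Lib.HopfOrder
open Fermat.Agent.Lib.InertiaLift Fermat.Agent.Lib.HopfOrderLoc Fermat.Agent.R.H54

attribute [local instance] qbar_isAlgebraic' qbar_isAlgClosure' qbar_isGalois'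

local notation "K" => AlgebraicClosure ℚ
local notation "GQ" => (AlgebraicClosure ℚ ≃ₐ[ℚ] AlgebraicClosure ℚ)

section Clause

variable {M ι : Type}

/-- The reduction clause passes from the generators to the ring they generate. -/
theorem genRing_sub_lt (A : ValuationSubring K) (h : ι → M → K)
    (integral : ∀ j x, h j x ∈ A) (x y : M) (hxy : ∀ j, A.valuation (h j x - h j y) < 1)
    {g : M → K} (hg : g ∈ genRing A.toSubring h) : A.valuation (g x - g y) < 1 := by
  induction hg using Subring.closure_induction with
  | mem g hg =>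
    rcases hg with ⟨a, ha, rfl⟩ | ⟨j, rfl⟩
    · rw [sub_self, map_zero]
      exact zero_lt_one
    · exact hxy j
  | zero =>
    show A.valuation ((0 : K) - 0) < 1
    rw [sub_self, map_zero]
    exact zero_lt_one
  | one =>
    show A.valuation ((1 : K) - 1) < 1
    rw [sub_self, map_zero]
    exact zero_lt_one
  | add g g' hg hg' ih ih' =>
    have : (g + g') x - (g + g') y = (g x - g y) + (g' x - g' y) := by
      simp only [Pi.add_apply]
      ring
    rw [this]
    exact Valuation.map_add_lt _ ih ih'
  | neg g hg ih =>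
    have : (-g) x - (-g) y = -(g x - g y) := by
      simp only [Pi.neg_apply]
      ring
    rw [this, Valuation.map_neg]
    exact ih
  | mul g g' hg hg' ih ih' =>
    have : (g * g') x - (g * g') y = (g x - g y) * g' x + g y * (g' x - g' y) := by
      simp only [Pi.mul_apply]
      ring
    rw [this]
    have h1 : A.valuation (g' x) ≤ 1 :=
      (A.valuation_le_one_iff _).2 (genRing_val_mem A.toSubring h integral hg' x)
    have h2 : A.valuation (g y) ≤ 1 :=
      (A.valuation_le_one_iff _).2 (genRing_val_mem A.toSubring h integral hg y)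
    refine Valuation.map_add_lt _ ?_ ?_
    · rw [map_mul]
      calc A.valuation (g x - g y) * A.valuation (g' x)
          ≤ A.valuation (g x - g y) * 1 := mul_le_mul_right h1 _
        _ = A.valuation (g x - g y) := mul_one _
        _ < 1 := ih
    · rw [map_mul]
      calc A.valuation (g y) * A.valuation (g' x - g' y)
          ≤ 1 * A.valuation (g' x - g' y) := mul_le_mul_left h2 _
        _ = A.valuation (g' x - g' y) := one_mul _
        _ < 1 := ih'

end Clause

section Pair

variable {M ι κ : Type} [AddCommGroup M] [Finite M]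

/-- **Explicit global generators** (the proof of `localGen_of`): under the hypotheses of the
local generator criterion there are `G_ℚ`-equivariant generators `F i ∈ genRing A h` satisfying
`GenData`. -/
theorem exists_genData [Finite ι] (ℓ : ℕ) (hℓ : ℓ.Prime)
    (A : ValuationSubring K) (hA : A.LiesOverPrime ℓ)
    (act : GQ → M → M) (h : ι → M → K)
    (act_one : ∀ x, act 1 x = x) (act_mul : ∀ σ τ x, act (σ * τ) x = act σ (act τ x))
    (act_add : ∀ σ x y, act σ (x + y) = act σ x + act σ y)
    (hcont : ∃ L : IntermediateField ℚ K, FiniteDimensional ℚ L ∧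
      ∀ σ ∈ L.fixingSubgroup, ∀ x, act σ x = x)
    (integral : ∀ j x, h j x ∈ A)
    (equivariant : ∀ j, ∀ σ ∈ A.inertiaSubgroupIn ℚ, ∀ x, h j (act σ x) = σ (h j x))
    (stable : ∀ j, ∀ σ ∈ A.decompositionSubgroup ℚ,
      twist act σ (h j) ∈ genRing A.toSubring h)
    (separates : ∀ x y, x ≠ y → ∃ j, h j x ≠ h j y)
    (comul : ∀ j, (fun q : M × M => h j (q.1 + q.2)) ∈ pairRing A.toSubring h) :
    ∃ (κ : Type) (_ : Finite κ) (F : κ → M → K),
      GenData (GaloisRep.ratLocalizedAt ℓ) A.toSubring act F ∧
      ∀ i, F i ∈ genRing A.toSubring h := by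
  classical
  have hF1 := H99.stmt_F1
  have hF2 := H99.stmt_F2
  obtain ⟨L₀, hL₀fin, hL₀⟩ := hcont
  -- the number field `L`
  let S : Set K := Set.range (fun p : ι × M => h p.1 p.2)
  haveI : Finite ↑S := Set.finite_range _
  haveI : FiniteDimensional ℚ ↥(IntermediateField.adjoin ℚ S) :=
    IntermediateField.finiteDimensional_adjoin (fun x _ => Algebra.IsIntegral.isIntegral x)
  let L₁ : IntermediateField ℚ K := L₀ ⊔ IntermediateField.adjoin ℚ S
  haveI : FiniteDimensional ℚ ↥L₁ := IntermediateField.finiteDimensional_sup _ _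
  let L : IntermediateField ℚ K := IntermediateField.normalClosure ℚ ↥L₁ K
  have hLfin : FiniteDimensional ℚ ↥L := normalClosure.is_finiteDimensional ℚ ↥L₁ K
  have hLnorm : Normal ℚ ↥L := by
    haveI : Normal ℚ K := IsGalois.to_normal
    exact normalClosure.normal ℚ ↥L₁ K
  have hL₁L : L₁ ≤ L := IntermediateField.le_normalClosure L₁
  have hLact : ∀ σ ∈ L.fixingSubgroup, ∀ x, act σ x = x := fun σ hσ x =>
    hL₀ σ (IntermediateField.fixingSubgroup_le (le_trans le_sup_left hL₁L) hσ) x
  have hLval : ∀ j x, h j x ∈ L := fun j x =>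
    hL₁L ((le_sup_right : IntermediateField.adjoin ℚ S ≤ L₁)
      (IntermediateField.subset_adjoin ℚ S ⟨(j, x), rfl⟩))
  -- `genRing` is spanned by its fixed elements
  have hle := genMod_le_span_fixed hF1 hF2 ℓ hℓ A hA act h act_one act_mul integral equivariant
    stable separates L hLfin hLnorm hLact hLval
  have hge : Submodule.span ↥A (fixedGen A act h) ≤ genMod A h := by
    rw [Submodule.span_le]
    intro f hf
    exact (mem_genMod_iff A h f).mpr hf.1
  have hspan : Submodule.span ↥A (fixedGen A act h) = genMod A h := le_antisymm hge hle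
  have hfg : (Submodule.span ↥A (fixedGen A act h)).FG := by
    rw [hspan]
    exact genMod_fg A h integral
  obtain ⟨s, hs, hss⟩ := (Submodule.fg_span_iff_fg_span_finset_subset _).mp hfg
  -- the new generators
  let F : ↥s → M → K := fun i => (i : M → K)
  have hFrange : Set.range F = (↑s : Set (M → K)) := by
    ext g
    constructor
    · rintro ⟨i, rfl⟩
      exact i.2
    · intro hg
      exact ⟨⟨g, hg⟩, rfl⟩
  have hFfix : ∀ i : ↥s, F i ∈ fixedGen A act h := fun i => hs i.2
  have hhspan : ∀ j, h j ∈ Submodule.span ↥A (Set.range F) := by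
    intro j
    rw [hFrange, ← hss, hspan, mem_genMod_iff]
    exact gen_mem_genRing A.toSubring h j
  refine ⟨↥s, inferInstance, F, ?_, fun i => (hFfix i).1⟩
  refine
    { act_add := act_add
      act_inj := ?_
      equivariant := ?_
      integral := ?_
      separates := ?_
      base := base_of_liesOver A ℓ hA
      fixed := fixed_of_liesOver A ℓ hℓ hA
      comul := ?_ }
  · -- injectivity of the action
    intro σ x y hxy
    have := congrArg (act σ⁻¹) hxy
    rwa [act_inv_act act act_one act_mul, act_inv_act act act_one act_mul] at this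
  · -- equivariance
    intro i σ x
    exact (twist_eq_iff act act_one act_mul σ (F i)).mp ((hFfix i).2 σ) x
  · -- integrality
    intro i x
    exact genRing_val_mem A.toSubring h integral (hFfix i).1 x
  · -- separation
    intro x y hxy
    by_contra hcon
    simp only [not_exists, not_not] at hcon
    obtain ⟨j, hj⟩ := separates x y hxy
    apply hj
    let N₀ : Submodule ↥A (M → K) :=
      { carrier := {g | g x = g y}
        add_mem' := fun {a b} ha hb => by
          show a x + b x = a y + b y
          rw [ha, hb]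
        zero_mem' := rfl
        smul_mem' := fun c g hg => by
          show (c : K) * g x = (c : K) * g y
          rw [hg] }
    have h1 : Submodule.span ↥A (Set.range F) ≤ N₀ := by
      rw [Submodule.span_le]
      rintro _ ⟨i, rfl⟩
      exact hcon i
    exact h1 (hhspan j)
  · -- comultiplication
    intro i
    exact pairRing_le_of_span A h F hhspan
      (comp_add_mem_pairRing A.toSubring h comul (hFfix i).1)

end Pair

section Abstract

variable {R K' G : Type} [CommRing R] [IsDomain R] [IsPrincipalIdealRing R] [Field K']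
  [Algebra R K'] [Group G] [MulSemiringAction G K']
variable {M : Type} [AddCommGroup M] [Finite M]
variable {H : Type} [CommRing H] [Algebra R H]
variable {act : G → M → M} {ev : M → (H →ₐ[R] K')}

/-- **Hopf orders are finite flat group schemes**, with the evaluation and the counit exposed
(the proof of `absFlat_of_isHopfOrder`): any property of the triple
`(x, ev x a, ev 0 a)` passes to `(e f, f a, counit a)`. -/
theorem exists_hopf_of_isHopfOrder (hD : DescentData R K' G) (hH : IsHopfOrder act ev)
    (P : M → K' → K' → Prop) (hP : ∀ (x : M) (a : H), P x (ev x a) (ev 0 a)) :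
    ∃ (H' : Type) (_ : CommRing H') (_ : HopfAlgebra R H'),
      Module.Finite R H' ∧ Module.Flat R H' ∧ Coalgebra.IsCocomm R H' ∧
      ∃ e : WithConv (H' →ₐ[R] K') ≃ M,
        (∀ f g : WithConv (H' →ₐ[R] K'), e (f * g) = e f + e g) ∧
        (∀ (σ : G) (f g : WithConv (H' →ₐ[R] K')),
          (∀ h : H', g h = σ • f h) → e g = act σ (e f)) ∧
        ∀ (f : WithConv (H' →ₐ[R] K')) (a : H'),
          P (e f) (f.ofConv a) (algebraMap R K' (Coalgebra.counit a)) := by
  have hint := fixedIntegral_of_descentData hD
  letI hopf := hopfAlgebra hD hH hint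
  haveI := hH.finite
  haveI := free_of_isHopfOrder hD hH
  let e₀ : M ≃ (H →ₐ[R] K') := Equiv.ofBijective ev (ev_bijective hD hH)
  let e : Pts R H K' ≃ M := (WithConv.equiv (H →ₐ[R] K')).trans e₀.symm
  have he : ∀ f : Pts R H K', f.ofConv = ev (e f) := fun f =>
    (e₀.apply_symm_apply f.ofConv).symm
  refine ⟨H, inferInstance, hopf, inferInstance, inferInstance, isCocomm hD hH hint, e,
    ?_, ?_, ?_⟩
  · intro f g
    apply ev_injective hH
    rw [← he]
    refine AlgHom.ext fun h => ?_
    show (f * g) h = ev (e f + e g) h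
    rw [convMul_apply', ← val₂_comulA hD hH, val₂_eq_mul', ← he, ← he]
    rfl
  · intro σ f g hfg
    apply ev_injective hH
    refine AlgHom.ext fun h => ?_
    rw [hH.equivariant, ← he, ← he]
    exact hfg h
  · intro f a
    have h1 : algebraMap R K' (Coalgebra.counit a) = ev 0 a :=
      algebraMap_counitA hD hH hint a
    rw [h1, he f]
    exact hP (e f) a

end Abstract

section Final

open Fermat.Agent.S19 Fermat.Agent.S19.H32 GaloisRep ModularCurve

/-- Elements of the Hopf order generated by `F i ∈ genRing A h` lie in `genRing A h`. -/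
theorem genAlg_le_genRing {M ι κ : Type} (ℓ : ℕ) (A : ValuationSubring K)
    (hA : A.LiesOverPrime ℓ) (h : ι → M → K) (F : κ → M → K)
    (hF : ∀ i, F i ∈ genRing A.toSubring h) {a : M → K}
    (ha : a ∈ genAlg (ratLocalizedAt ℓ) F) : a ∈ genRing A.toSubring h := by
  induction ha using Algebra.adjoin_induction with
  | mem g hg =>
    obtain ⟨i, rfl⟩ := hg
    exact hF i
  | algebraMap r =>
    exact const_mem_genRing A.toSubring h (base_of_liesOver A ℓ hA r)
  | add g g' _ _ ih ih' => exact Subring.add_mem _ ih ih'
  | mul g g' _ _ ih ih' => exact Subring.mul_mem _ ih ih'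

/-- **NUQ-a**: the finite flat model of `J₀(N)[ℓ^k]` with the reduction clause. -/
theorem hopfK1_of (hFL : Stmt_FLGenCoreK1) : Stmt_HopfK1 := by
  intro N _ ℓ _ hℓN k A hA
  have hℓ : ℓ.Prime := Fact.out
  have hn : ((ℓ : ℤ) ^ k) ≠ 0 := pow_ne_zero _ (by exact_mod_cast hℓ.ne_zero)
  haveI := tors_finite N _ hn
  obtain ⟨ι, hι, h, hint, heq, hst, hsep, hcom, hcl⟩ := hFL N ℓ hℓN k A hA
  haveI := hι
  obtain ⟨κ, hκ, F, hG, hFgen⟩ :=
    exists_genData ℓ hℓ A hA (torsAct N ((ℓ : ℤ) ^ k)) h
      (torsAct_one N _) (torsAct_mul N _) (torsAct_add N _) (tors_act_cont N _ hn)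
      hint heq hst hsep hcom
  haveI := hκ
  haveI := ratLocalizedAt_isPrincipalIdealRing ℓ
  have hH : IsHopfOrder (torsAct N ((ℓ : ℤ) ^ k)) (evGen (ratLocalizedAt ℓ) F) :=
    isHopfOrder_of_genData (descentData_rat ℓ) hG
  obtain ⟨H', j1, j2, h1, h2, h3, e, he, hσ, hP⟩ :=
    exists_hopf_of_isHopfOrder (descentData_rat ℓ) hH
      (fun x u v => Fermat.Agent.BAD.InK1 A N (ℓ ^ k) ((x : Tors N ((ℓ : ℤ) ^ k)) : JZero N) →
        A.valuation (u - v) < 1)
      (by
        intro x a hx
        rw [evGen_apply, evGen_apply]
        refine genRing_sub_lt A h hint x 0 ?_ (genAlg_le_genRing ℓ A hA h F hFgen a.2)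
        refine hcl x 0 ?_
        simpa using hx)
  exact ⟨H', j1, j2, h1, h2, h3, e, he, hσ, fun f hf a => hP f a hf⟩

end Final

end Fermat.Agent.S59.LGC.H38
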