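import Fermat.Agent.S59.LGC.Defs
import Fermat.Agent.RED.H36_AllRed
import Fermat.Agent.RED.H36_Fin
import Fermat.Agent.RED.H17_TIabs
import Fermat.Agent.BAD.H91_B0
attribute [local instance 10000] SubalgebraClass.toAlgebra
attribute [local instance 10000] HahnSeries.powerSeriesAlgebra

/-!
# S59, case C, LGC-p: the Eichler–Shimura relation at `p` modulo the kernel of reduction
(helper54)

`stmt_TorsESp N p : Stmt_TorsESp N p`: for `p ∤ N`, a Frobenius element `g` at a place `A` over
`p` and `x ∈ J₀(N)[n]`:  `g² x - T_p (g x) + p x ∈ K1(n)`.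

Proof: `RED.Stmt_ES3` at `ℓ = p` is an identity of DIVISORS of the reduced curve,
`r_* (T_p (g D)) = φ² r_* D + p r_* D`; hence the divisor `E = g g D - T_p (g D) + p D` has
`r_* E = 0`.  If `n E = div f`, scale `f` to a Gauss unit `u`; `div (red u) = n r_* E = 0`, so
`red u` is a constant, and `u / (lift of the constant)` has reduction `1`.
-/

set_option autoImplicit false
set_option linter.style.haveILetI false
set_option synthInstance.maxHeartbeats 400000
set_option maxHeartbeats 4000000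

noncomputable section

open AlgebraicCurve ModularCurve Fermat.Agent.S28.H73 Fermat.Agent.RED.H73

namespace Fermat.Agent.S59.LGC.H54

open Fermat.Agent.RED Fermat.Agent.RED.H36 Fermat.Agent.RED.H17 Fermat.Agent.BAD
  Fermat.Agent.S37

/-- A divisor `E` with `r_* E = 0` and `n E` principal has its class in `K1(n)`. -/
theorem inK1_of_mapDomain_eq_zero (N : ℕ) [NeZero N]
    (A : ValuationSubring (AlgebraicClosure ℚ)) [IsAlgClosed (kV A)]
    (hFt : IsFF (kV A)
      ↥(redField A (modularFunctionFieldBar N) (hasScale_laurentBaseChange A N)))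
    (r : Place (AlgebraicClosure ℚ) ↥(modularFunctionFieldBar N) →
        Place (kV A) ↥(redField A (modularFunctionFieldBar N) (hasScale_laurentBaseChange A N)))
    (hr : IsRed A (hasScale_laurentBaseChange A N) r) (n : ℕ)
    (E : Divisor.degZero (K := AlgebraicClosure ℚ) (F := ↥(FNbar N)))
    (hrE : Finsupp.mapDomain r (E : Divisor (AlgebraicClosure ℚ) ↥(FNbar N)) = 0)
    (hnE : n • (Pic0.mk E : JZero N) = 0) :
    InK1 A N n (Pic0.mk E) := by
  classical
  obtain ⟨f, hf0, hfE⟩ := Fermat.Agent.BAD.H91.exists_kummer_of_nsmul_eq_zero N n E hnE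
  set S := redSetupOf A (hasScale_laurentBaseChange A N) r hr with hS
  obtain ⟨c, hc, hmem, hne⟩ := S.exists_scale f hf0
  have hordu : ∀ P : Place (AlgebraicClosure ℚ) ↥(FNbar N),
      P.ord (algebraMap (AlgebraicClosure ℚ) ↥(FNbar N) c * f)
        = (n : ℤ) * (E : Divisor (AlgebraicClosure ℚ) ↥(FNbar N)) P := by
    intro P
    rw [Place.ord_mul _ ((map_ne_zero _).2 hc) hf0, Fermat.Agent.BAD.H91.ord_algebraMap_zero,
      zero_add, hfE P]
  -- the reduction of `u` has neither zeros nor poles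
  have hQ : ∀ Q : Place (kV A)
      ↥(redField A (modularFunctionFieldBar N) (hasScale_laurentBaseChange A N)),
      Q.ord (S.red ⟨_, hmem⟩) = 0 := by
    intro Q
    have h1 := S.DI ⟨_, hmem⟩ hne (n • (E : Divisor (AlgebraicClosure ℚ) ↥(FNbar N)))
      (fun P => by
        rw [Finsupp.smul_apply, nsmul_eq_mul]
        exact (hordu P).symm) Q
    rw [← h1, Finsupp.mapDomain_smul]
    show (n • Finsupp.mapDomain r (E : Divisor (AlgebraicClosure ℚ) ↥(FNbar N))) Q = 0
    rw [hrE, smul_zero]
    rfl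
  obtain ⟨c', hc'⟩ := const_of_ord_eq_zero hFt _ hne hQ
  have hc'0 : c' ≠ 0 := by
    rintro rfl
    rw [map_zero] at hc'
    exact hne hc'
  obtain ⟨d, hd, hdred⟩ := S.const_surj c'⁻¹
  have hd0 : d ≠ 0 := by
    rintro rfl
    have h0 : (⟨algebraMap (AlgebraicClosure ℚ) ↥(FNbar N) 0, hd⟩ : ↥S.V) = 0 :=
      Subtype.ext (map_zero _)
    rw [h0, map_zero] at hdred
    exact (map_ne_zero (algebraMap (kV A) _)).2 (inv_ne_zero hc'0) hdred.symm
  let f₁ : ↥(gaussV A N) := (⟨_, hd⟩ : ↥S.V) * (⟨_, hmem⟩ : ↥S.V)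
  refine ⟨E, f₁, rfl, ?_, fun P => ?_⟩
  · show S.red ((⟨_, hd⟩ : ↥S.V) * (⟨_, hmem⟩ : ↥S.V)) = 1
    rw [map_mul, hdred, hc', ← map_mul, inv_mul_cancel₀ hc'0, map_one]
  · show (n : ℤ) * (E : Divisor (AlgebraicClosure ℚ) ↥(FNbar N)) P
      = P.ord (algebraMap (AlgebraicClosure ℚ) ↥(FNbar N) d
          * (algebraMap (AlgebraicClosure ℚ) ↥(FNbar N) c * f))
    rw [Place.ord_mul _ ((map_ne_zero _).2 hd0)
      (mul_ne_zero ((map_ne_zero _).2 hc) hf0), Fermat.Agent.BAD.H91.ord_algebraMap_zero,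
      zero_add, hordu P]

/-- **(ES-p)**: the Eichler–Shimura relation at `p` modulo the kernel of reduction. -/
theorem stmt_TorsESp (N p : ℕ) [NeZero N] : Stmt_TorsESp N p := by
  classical
  intro hp hpN A hA σ hσ n x hx
  haveI : NeZero p := ⟨hp.ne_zero⟩
  obtain ⟨r, hr, hmove⟩ := Fermat.Agent.RED.H36.stmt_RM N p hp hpN A hA
  haveI : IsAlgClosed (kV A) := isAlgClosed_kV A
  have hFt := isFF_redField_bar N p hp hpN A hA
  obtain ⟨hα, hβ, hP, hfin, hFI, hNF⟩ := Fermat.Agent.RED.H51.stmt_HKA N p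
  obtain ⟨gt, hgt_coeff, hgt_r⟩ :=
    Fermat.Agent.RED.H36.stmt_EQ N p hp hpN A hA r hr σ hσ.mem_decompositionSubgroup
  have hφ : ∀ (x : ↥(redField A (modularFunctionFieldBar N) (hasScale_laurentBaseChange A N)))
      (n : ℤ),
      ((gt • x : ↥(redField A (modularFunctionFieldBar N)
          (hasScale_laurentBaseChange A N))) : LaurentSeries (kV A)).coeff n
        = ((x : LaurentSeries (kV A)).coeff n) ^ p := by
    intro x n
    rw [hgt_coeff x n, hσ.smul_residue_eq]
  have hES' := @Fermat.Agent.RED.H95.stmt_ES3 N p _ _ hp hpN A hA hα hβ hP r hr hmove gt hφ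
  obtain ⟨D, rfl⟩ := Pic0.mk_surjective x
  -- the divisor `E = g g D - T_p (g D) + p D`
  set E : Divisor.degZero (K := AlgebraicClosure ℚ) (F := ↥(FNbar N)) :=
    SemilinearAut.degZeroSMulHom (arithmeticGalois (modularFunctionFieldFull N) σ)
        (SemilinearAut.degZeroSMulHom (arithmeticGalois (modularFunctionFieldFull N) σ) D)
      - Pic0.degZeroCorrespondence (heckeBetaBar (AlgebraicClosure ℚ) N p)
          (heckeAlphaBar (AlgebraicClosure ℚ) N p) hβ hα hFI
          (SemilinearAut.degZeroSMulHom (arithmeticGalois (modularFunctionFieldFull N) σ) D)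
      + p • D with hE
  have hclass : σ • σ • (Pic0.mk D : JZero N)
      - heckeOperatorBar N ⟨p, hp⟩ (σ • (Pic0.mk D : JZero N)) + p • (Pic0.mk D : JZero N)
      = Pic0.mk E := by
    have hT : heckeOperatorBar N ⟨p, hp⟩ (σ • (Pic0.mk D : JZero N)) =
        heckeOperatorAlong (AlgebraicClosure ℚ) N p (σ • (Pic0.mk D : JZero N)) := rfl
    rw [hT, heckeOperatorAlong_eq hα hβ hFI hfin hNF]
    rfl
  rw [hclass]
  have hnE : n • (Pic0.mk E : JZero N) = 0 := by
    rw [← hclass]
    have hgal : ∀ y : JZero N, n • y = 0 → n • (σ • y) = 0 := by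
      intro y hy
      have h1 := map_nsmul (DistribSMul.toAddMonoidHom (JZero N) σ) n y
      simp only [DistribSMul.toAddMonoidHom_apply] at h1
      rw [← h1, hy, smul_zero]
    have e1 : n • (σ • σ • (Pic0.mk D : JZero N)) = 0 := hgal _ (hgal _ hx)
    have e2 : n • (heckeOperatorBar N ⟨p, hp⟩ (σ • (Pic0.mk D : JZero N))) = 0 := by
      rw [← map_nsmul, hgal _ hx, map_zero]
    have e3 : n • (p • (Pic0.mk D : JZero N)) = 0 := by
      rw [smul_comm, hx, smul_zero]
    rw [nsmul_add, nsmul_sub, e1, e2, e3, sub_zero, add_zero]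
  refine inK1_of_mapDomain_eq_zero N A hFt r hr n E ?_ hnE
  -- `r_* E = 0`
  have e1 := mapDomain_smul_eq A (hasScale_laurentBaseChange A N)
    (arithmeticGalois (modularFunctionFieldFull N) σ) gt hgt_r (D : Divisor _ _)
  have e2 := mapDomain_smul_eq A (hasScale_laurentBaseChange A N)
    (arithmeticGalois (modularFunctionFieldFull N) σ) gt hgt_r
    (arithmeticGalois (modularFunctionFieldFull N) σ • (D : Divisor _ _))
  have e3 := hES' (arithmeticGalois (modularFunctionFieldFull N) σ • (D : Divisor _ _))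
  rw [e1] at e2 e3
  rw [inv_smul_smul] at e3
  have e3' : Finsupp.mapDomain r
      (Divisor.correspondence (heckeBetaBar (AlgebraicClosure ℚ) N p)
        (heckeAlphaBar (AlgebraicClosure ℚ) N p) hβ hα
        (arithmeticGalois (modularFunctionFieldFull N) σ • (D : Divisor _ _)))
      = gt • gt • Finsupp.mapDomain r (D : Divisor _ _)
        + p • Finsupp.mapDomain r (D : Divisor _ _) := e3
  have hEcoe : (E : Divisor (AlgebraicClosure ℚ) ↥(FNbar N)) =
      arithmeticGalois (modularFunctionFieldFull N) σ •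
          arithmeticGalois (modularFunctionFieldFull N) σ • (D : Divisor _ _)
        - Divisor.correspondence (heckeBetaBar (AlgebraicClosure ℚ) N p)
            (heckeAlphaBar (AlgebraicClosure ℚ) N p) hβ hα
            (arithmeticGalois (modularFunctionFieldFull N) σ • (D : Divisor _ _))
        + p • (D : Divisor _ _) := rfl
  rw [hEcoe, Finsupp.mapDomain_add, Finsupp.mapDomain_sub, Finsupp.mapDomain_smul, e2, e3']
  abel

end Fermat.Agent.S59.LGC.H54
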