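import Fermat.Agent.S59.LGC.DefsVec
import Fermat.Agent.S33.H86_FlatInf
import Fermat.Agent.Lib.FrobDensity.H97_Bridge
import Fermat.Agent.Lib.InertiaConj
import Fermat.Agent.Lib.FrobExists

/-!
# S59, case C, LGC-p, leaf CONJ (helper5)

`lgcpt_of_padicPlace : Stmt_LGCpt0 → CaseC.Geom.Stmt_LGCpt`.

All places over `p` are conjugate: `primeUnder P = τ • primeUnder (padicPlace p)`.
`ℒ' := ρ(τ)⁻¹ ℒ` is an ordinary line at `padicPlace p`.  For ANY Frobenius element `φ` at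
`padicPlace p` (`Lib.FrobExists.exists_isFrobeniusAt`), `(τ φ τ⁻¹)⁻¹ g` lies in the inertia group
of `P`, and inertia acts trivially on `V / ℒ`, so `φ` has the same eigenvalue `z` on `V / ℒ'`.

* `frob_conj_mem_inertia` : Frobenius elements at conjugate places are conjugate modulo
  inertia, with the SAME conjugating element as for the primes.
* `ordLineConj` : the conjugate ordinary line.
* `isQuotEigen_conj`.
* `lgcpt_of_padicPlace`.

No `sorry`.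
-/

set_option autoImplicit false
set_option linter.unusedSectionVars false
set_option linter.style.haveILetI false
set_option linter.unusedVariables false

open scoped Pointwise

noncomputable section

namespace Fermat.Agent.S59.LGC.H5

open Fermat.Agent.S59 Fermat.Agent.S59.CaseC Fermat.Agent.S59.LGC
open Fermat.Agent.Lib.FrobIntegers Fermat.Agent.Lib.FrobExists Fermat.Agent.Lib.InertiaBridge
open Fermat.Agent.Lib.InertiaConj

attribute [local instance] qbar_isAlgebraic qbar_isAlgClosure qbar_isGalois zbar_isInvariant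
  zbarTopologicalSpace zbar_discreteTopology zbar_continuousSMul

/-- The Galois group of `ℚ`. -/
local notation "Γℚ" => AlgebraicClosure ℚ ≃ₐ[ℚ] AlgebraicClosure ℚ

/-- The Frobenius congruence on algebraic integers. -/
theorem frob_sub_pow_mem_primeUnder' (ℓ : ℕ) (A : ValuationSubring (AlgebraicClosure ℚ)) (φ : Γℚ)
    (hφ : A.IsFrobeniusAt φ ℓ) (b : ZBar) : φ • b - b ^ ℓ ∈ primeUnder A := by
  rw [mem_primeUnder]
  have hb : (b : AlgebraicClosure ℚ) ∈ A :=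
    (A.valuation_le_one_iff _).1 (valuation_le_one_of_isIntegral A _ b.2)
  exact Fermat.Agent.Lib.FrobDensity.H97.valuation_frob_sub_pow_lt_one A φ ℓ hφ _ hb

/-- Frobenius elements at places over the same prime are conjugate modulo inertia, with the same
conjugating element as for the primes. -/
theorem frob_conj_mem_inertia (ℓ : ℕ) (hℓ : ℓ.Prime)
    (A P : ValuationSubring (AlgebraicClosure ℚ)) (hA : A.LiesOverPrime ℓ)
    (hP : P.LiesOverPrime ℓ) (g : Γℚ) (hg : primeUnder P = g • primeUnder A)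
    (φ φ' : Γℚ) (hφ : A.IsFrobeniusAt φ ℓ) (hφ' : P.IsFrobeniusAt φ' ℓ) :
    (g * φ * g⁻¹)⁻¹ * φ' ∈ P.inertiaSubgroupIn ℚ := by
  have hφstab : φ • primeUnder A = primeUnder A :=
    (mem_decompositionSubgroup_iff ℓ hℓ A hA φ).1 hφ.mem_decompositionSubgroup
  set ψ : Γℚ := g * φ * g⁻¹ with hψ
  have hψstab : ψ • primeUnder P = primeUnder P := by
    rw [hg, hψ, mul_smul, mul_smul, inv_smul_smul, hφstab]
  have hψinv : ψ⁻¹ • primeUnder P = primeUnder P := by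
    conv_lhs => rw [← hψstab]
    rw [inv_smul_smul]
  rw [mem_inertiaSubgroupIn_iff ℓ hℓ P hP]
  intro b
  have h1 : φ' • b - b ^ ℓ ∈ primeUnder P := frob_sub_pow_mem_primeUnder' ℓ P φ' hφ' b
  have h2 : ψ • b - b ^ ℓ ∈ primeUnder P := by
    have h3 : φ • (g⁻¹ • b) - (g⁻¹ • b) ^ ℓ ∈ primeUnder A :=
      frob_sub_pow_mem_primeUnder' ℓ A φ hφ _
    have h4 : g • (φ • (g⁻¹ • b) - (g⁻¹ • b) ^ ℓ) ∈ g • primeUnder A :=
      Ideal.smul_mem_pointwise_smul_iff.2 h3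
    rw [← hg] at h4
    have h5 : g • (φ • (g⁻¹ • b) - (g⁻¹ • b) ^ ℓ) = ψ • b - b ^ ℓ := by
      rw [smul_sub, smul_pow', smul_inv_smul, hψ, mul_smul, mul_smul]
    rw [h5] at h4
    exact h4
  have h6 : φ' • b - ψ • b ∈ primeUnder P := by
    have := (primeUnder P).sub_mem h1 h2
    rwa [sub_sub_sub_cancel_right] at this
  have h7 : ψ⁻¹ • (φ' • b - ψ • b) ∈ ψ⁻¹ • primeUnder P :=
    Ideal.smul_mem_pointwise_smul_iff.2 h6
  rw [hψinv, smul_sub, inv_smul_smul, ← mul_smul] at h7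
  exact h7

section Line

variable {A : Type} [CommRing A] [IsLocalRing A] (ρ : GaloisRepAdic A)

theorem rho_mul_apply (σ τ : Γℚ) (v : ρ.V) : ρ.ρ (σ * τ) v = ρ.ρ σ (ρ.ρ τ v) := by
  rw [map_mul]; rfl

theorem rho_inv_apply (τ : Γℚ) (v : ρ.V) : ρ.ρ τ⁻¹ (ρ.ρ τ v) = v := by
  rw [← rho_mul_apply, inv_mul_cancel, map_one]; rfl

theorem rho_apply_inv (τ : Γℚ) (v : ρ.V) : ρ.ρ τ (ρ.ρ τ⁻¹ v) = v := by
  rw [← rho_mul_apply, mul_inv_cancel, map_one]; rfl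

/-- `ρ(τ)` as a linear equivalence. -/
def rhoEquiv (τ : Γℚ) : ρ.V ≃ₗ[A] ρ.V :=
  LinearEquiv.ofLinearMap (ρ.ρ τ) (ρ.ρ τ⁻¹)
    (LinearMap.ext fun v => rho_apply_inv ρ τ v) (LinearMap.ext fun v => rho_inv_apply ρ τ v)

theorem rhoEquiv_apply (τ : Γℚ) (v : ρ.V) : rhoEquiv ρ τ v = ρ.ρ τ v := rfl

theorem rhoEquiv_symm_apply (τ : Γℚ) (v : ρ.V) : (rhoEquiv ρ τ).symm v = ρ.ρ τ⁻¹ v := rfl

theorem rho_conj_apply (τ σ : Γℚ) (v : ρ.V) :
    ρ.ρ τ (ρ.ρ σ v) = ρ.ρ (τ * σ * τ⁻¹) (ρ.ρ τ v) := by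
  rw [rho_mul_apply, rho_mul_apply, rho_inv_apply]

/-- **The conjugate ordinary line**: if `primeUnder P = τ • primeUnder P₀` and `ℒ` is an
ordinary line at `P`, then `ρ(τ)⁻¹ ℒ` is an ordinary line at `P₀`. -/
def ordLineConj (ℓ : ℕ) (hℓ : ℓ.Prime) (P₀ P : ValuationSubring (AlgebraicClosure ℚ))
    (hP₀ : P₀.LiesOverPrime ℓ) (hP : P.LiesOverPrime ℓ) (τ : Γℚ)
    (hτ : primeUnder P = τ • primeUnder P₀) (ℒ : OrdLine ρ P) : OrdLine ρ P₀ where
  L := ℒ.L.comap (ρ.ρ τ)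
  isLine := by
    obtain ⟨b, hb⟩ := ℒ.isLine
    refine ⟨b.map (rhoEquiv ρ τ).symm, ?_⟩
    have h1 : ℒ.L.comap (ρ.ρ τ) = ℒ.L.map ((rhoEquiv ρ τ).symm : ρ.V →ₗ[A] ρ.V) := by
      ext v
      rw [Submodule.mem_comap, Submodule.mem_map]
      constructor
      · intro hv
        exact ⟨ρ.ρ τ v, hv, rho_inv_apply ρ τ v⟩
      · rintro ⟨w, hw, rfl⟩
        show ρ.ρ τ (ρ.ρ τ⁻¹ w) ∈ ℒ.L
        rw [rho_apply_inv]
        exact hw
    rw [h1, hb, Submodule.map_span, Set.image_singleton]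
    rfl
  stable := by
    intro σ hσ v hv
    rw [Submodule.mem_comap] at hv ⊢
    rw [rho_conj_apply]
    refine ℒ.stable _ ?_ _ hv
    rw [Fermat.Agent.S33.H86.mem_decomposition_conj ℓ hℓ P₀ P hP₀ hP τ hτ]
    have : τ⁻¹ * (τ * σ * τ⁻¹) * τ = σ := by group
    rw [this]
    exact hσ
  inertia := by
    intro σ hσ v
    rw [Submodule.mem_comap, map_sub, rho_conj_apply]
    refine ℒ.inertia _ ?_ _
    rw [Fermat.Agent.S33.H86.mem_inertia_conj ℓ hℓ P₀ P hP₀ hP τ hτ]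
    have : τ⁻¹ * (τ * σ * τ⁻¹) * τ = σ := by group
    rw [this]
    exact hσ

/-- An element which differs from `g` by inertia has the same eigenvalue on the quotient. -/
theorem isQuotEigen_of_inertia {P : ValuationSubring (AlgebraicClosure ℚ)} (ℒ : OrdLine ρ P)
    (g ψ : Γℚ) (hg : g ∈ P.decompositionSubgroup ℚ) (hi : g⁻¹ * ψ ∈ P.inertiaSubgroupIn ℚ)
    (z : A) (hz : ℒ.IsQuotEigen g z) (w : ρ.V) : ρ.ρ ψ w - z • w ∈ ℒ.L := by
  have e : ρ.ρ ψ w = ρ.ρ g (ρ.ρ (g⁻¹ * ψ) w) := by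
    rw [← rho_mul_apply, mul_inv_cancel_left]
  have h1 : ρ.ρ ψ w - z • w =
      ρ.ρ g (ρ.ρ (g⁻¹ * ψ) w - w) + (ρ.ρ g w - z • w) := by
    rw [map_sub, ← e]
    abel
  rw [h1]
  exact ℒ.L.add_mem (ℒ.stable g hg _ (ℒ.inertia _ hi w)) (hz w)

/-- The eigenvalue on the quotient is the same for every Frobenius element at the conjugate
place. -/
theorem isQuotEigen_conj (ℓ : ℕ) (hℓ : ℓ.Prime) (P₀ P : ValuationSubring (AlgebraicClosure ℚ))
    (hP₀ : P₀.LiesOverPrime ℓ) (hP : P.LiesOverPrime ℓ) (τ : Γℚ)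
    (hτ : primeUnder P = τ • primeUnder P₀) (ℒ : OrdLine ρ P)
    (g φ : Γℚ) (hg : P.IsFrobeniusAt g ℓ) (hφ : P₀.IsFrobeniusAt φ ℓ) (z : A)
    (hz : ℒ.IsQuotEigen g z) :
    (ordLineConj ρ ℓ hℓ P₀ P hP₀ hP τ hτ ℒ).IsQuotEigen φ z := by
  intro v
  show ρ.ρ φ v - z • v ∈ ℒ.L.comap (ρ.ρ τ)
  rw [Submodule.mem_comap, map_sub, map_smul, rho_conj_apply]
  have hi : (τ * φ * τ⁻¹)⁻¹ * g ∈ P.inertiaSubgroupIn ℚ :=
    frob_conj_mem_inertia ℓ hℓ P₀ P hP₀ hP τ hτ φ g hφ hg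
  have hi' : g⁻¹ * (τ * φ * τ⁻¹) ∈ P.inertiaSubgroupIn ℚ := by
    have := inv_mem hi
    rwa [mul_inv_rev, inv_inv] at this
  exact isQuotEigen_of_inertia ρ ℒ g _ hg.mem_decompositionSubgroup hi' z hz _

end Line

/-- **CONJ**: the statement at `padicPlace p` gives the statement at every place over `p`. -/
theorem lgcpt_of_padicPlace (h0 : Stmt_LGCpt0) : CaseC.Geom.Stmt_LGCpt := by
  intro 𝒪 _ _ _ _ _ _ p _ hp2 hp𝔪 N _ S hpS' hNS hp hpN hpS xt ρ hchar hdet hirr P hP ℒ g hg z hz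
  have hP₀ : (padicPlace p).LiesOverPrime p := Fermat.Agent.S33.H86.padicPlace_liesOverPrime
  obtain ⟨τ, hτ⟩ := exists_smul_primeUnder p hp (padicPlace p) P hP₀ hP
  obtain ⟨φ, hφ⟩ := exists_isFrobeniusAt p hp (padicPlace p) hP₀
  exact h0 𝒪 p hp2 hp𝔪 N S hpS' hNS hp hpN hpS xt ρ hchar hdet hirr
    (ordLineConj ρ p hp (padicPlace p) P hP₀ hP τ hτ ℒ) φ hφ z
    (isQuotEigen_conj ρ p hp (padicPlace p) P hP₀ hP τ hτ ℒ g φ hg hφ z hz)

end Fermat.Agent.S59.LGC.H5
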