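import Fermat.Agent.BAD.Defs
import Fermat.Agent.GTor.TateDefs
import Fermat.Prelude.Def_GaloisRep_CompletionBridge

/-!
# S59, case C, LGC-p (helper54): torsion-level interface statements

Level `N`, `p ∤ N` an odd prime, `A` a valuation ring of `ℚ̄` over `p`,
`K1(n) = BAD.InK1 A N n` = the kernel of reduction on `J₀(N)[n]` (classes with a Kummer function
`≡ 1` for the Gauss valuation).

* `Stmt_TorsESp N p` **(ES-p)**: the Eichler–Shimura relation at `p` modulo `K1`:
  `(g² - T_p g + p) J₀(N)[n] ⊆ K1(n)` for every Frobenius element `g` at `A`.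
  [`RED.Stmt_ES3` at `ℓ = p` holds on DIVISORS: `r_*(T_p (g D)) = φ² r_* D + p r_* D`
  (as in `RED.H36.redPackage_of`, which uses `ℓ ∤ p` only for injectivity); so the divisor
  `E = g g D - T_p (g D) + p D` has `r_* E = 0`; `n E = div f`, `f` scaled to a Gauss unit,
  `div (red f) = 0`, `red f` constant.]
* `Stmt_K1NoUnr N p` **(NUQ)**: `K1(p^k)` has no unramified quotient, at the place
  `padicPlace p`: if `Nsub` is a subgroup stable under the decomposition group,
  `x ∈ K1(p^k)`, `p x ∈ Nsub` and inertia fixes `x` modulo `Nsub`, then `x ∈ Nsub`.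
  [`S59.LGC.Stmt_FLGenCoreK1` (file `DefsFL.lean`) + the proof of `R.Stmt_FlatInf`
  (`S33.H86.flatInf_padicPlace`, `subq_gen`) for the explicit Hopf order `genAlg`.]

`Fermat.Agent.S59.LGC.H54.lgc_of` deduces `CaseC.Geom.Stmt_LGCpt` from these two statements.
Definitions only.
-/

set_option autoImplicit false

noncomputable section

open AlgebraicCurve ModularCurve

namespace Fermat.Agent.S59.LGC

/-- **(ES-p)**: the Eichler–Shimura relation at `p ∤ N` on the `n`-torsion of `J₀(N)`, modulo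
the kernel of reduction. -/
def Stmt_TorsESp (N p : ℕ) [NeZero N] : Prop :=
  ∀ (hp : p.Prime), ¬ p ∣ N →
    ∀ A : ValuationSubring (AlgebraicClosure ℚ), A.LiesOverPrime p →
      ∀ σ : AlgebraicClosure ℚ ≃ₐ[ℚ] AlgebraicClosure ℚ, A.IsFrobeniusAt σ p →
        ∀ (n : ℕ) (x : JZero N), n • x = 0 →
          Fermat.Agent.BAD.InK1 A N n
            (σ • σ • x - heckeOperatorBar N ⟨p, hp⟩ (σ • x) + p • x)

/-- **(NUQ)**: the kernel of reduction `K1(p^k)` of `J₀(N)`, `p ∤ N` odd, has no unramified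
quotient (place `padicPlace p`). -/
def Stmt_K1NoUnr (N p : ℕ) [NeZero N] [Fact p.Prime] : Prop :=
  p ≠ 2 → ¬ p ∣ N → ∀ (k : ℕ) (Nsub : AddSubgroup (JZero N)),
    (∀ σ ∈ (padicPlace p).decompositionSubgroup ℚ, ∀ x ∈ Nsub, σ • x ∈ Nsub) →
    ∀ x : JZero N, Fermat.Agent.BAD.InK1 (padicPlace p) N (p ^ k) x → p • x ∈ Nsub →
      (∀ σ ∈ (padicPlace p).inertiaSubgroupIn ℚ, σ • x - x ∈ Nsub) → x ∈ Nsub

end Fermat.Agent.S59.LGC
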