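import Fermat.Agent.S59.LGC.DefsFL
import Fermat.Prelude.Def_GaloisRep_Flat

/-!
# S59, case C, LGC-p (helper54): the finite flat model of `J₀(N)[ℓ^k]` WITH the reduction clause

`Stmt_HopfK1` = the frozen statement S19 (for `Tors N (ℓ^k)` with its Galois action) + the clause:
a point `f` of the Hopf algebra whose class lies in the kernel of reduction `K1(ℓ^k)` at the
place `A` reduces to the counit at `A`.

* NUQ-a : `hopfK1_of : Stmt_FLGenCoreK1 → Stmt_HopfK1`.  [The proof of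
  `Lib.HopfOrderLoc.localGen_of` / `Lib.HopfOrder.flat_of_generators` /
  `absFlat_of_isHopfOrder` with the Hopf order `genAlg R F` and `he : f.ofConv = evGen (e f)`
  exposed; the generators `F i` lie in `genRing A h`, so `F i x ≡ F i 0` if `h j x ≡ h j 0`;
  `(e.symm 0) a = algebraMap (counit a)`.]
* NUQ-b : `k1NoUnr_of_hopf : Stmt_HopfK1 → ∀ N p, Stmt_K1NoUnr N p`.  [The proof of
  `S33.H86.flatInf_padicPlace` with `H`, `e` given; `K1 ⊆ Inf` by the clause, at
  `A = padicPlace p` (`valuation_padicPlace_lt_one_iff`).]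

Definitions only.
-/

set_option autoImplicit false

noncomputable section

open AlgebraicCurve ModularCurve

namespace Fermat.Agent.S59.LGC

open Fermat.Agent.S19 Fermat.Agent.S19.H32

/-- **S19 with the reduction clause**, at every place `A` over `ℓ`. -/
def Stmt_HopfK1 : Prop :=
  ∀ (N : ℕ) [NeZero N] (ℓ : ℕ) [Fact ℓ.Prime], ¬ ℓ ∣ N → ∀ k : ℕ,
    ∀ A : ValuationSubring (AlgebraicClosure ℚ), A.LiesOverPrime ℓ →
    ∃ (H : Type) (_ : CommRing H) (_ : HopfAlgebra (GaloisRep.ratLocalizedAt ℓ) H),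
      Module.Finite (GaloisRep.ratLocalizedAt ℓ) H ∧
      Module.Flat (GaloisRep.ratLocalizedAt ℓ) H ∧
      Coalgebra.IsCocomm (GaloisRep.ratLocalizedAt ℓ) H ∧
      ∃ e : WithConv (H →ₐ[GaloisRep.ratLocalizedAt ℓ] AlgebraicClosure ℚ) ≃
          Tors N ((ℓ : ℤ) ^ k),
        (∀ f g : WithConv (H →ₐ[GaloisRep.ratLocalizedAt ℓ] AlgebraicClosure ℚ),
          e (f * g) = e f + e g) ∧
        (∀ (σ : AlgebraicClosure ℚ ≃ₐ[ℚ] AlgebraicClosure ℚ)
          (f g : WithConv (H →ₐ[GaloisRep.ratLocalizedAt ℓ] AlgebraicClosure ℚ)),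
          (∀ h : H, g h = σ (f h)) → e g = torsAct N ((ℓ : ℤ) ^ k) σ (e f)) ∧
        ∀ f : WithConv (H →ₐ[GaloisRep.ratLocalizedAt ℓ] AlgebraicClosure ℚ),
          Fermat.Agent.BAD.InK1 A N (ℓ ^ k) ((e f : Tors N ((ℓ : ℤ) ^ k)) : JZero N) →
          ∀ a : H, A.valuation (f.ofConv a -
            algebraMap (GaloisRep.ratLocalizedAt ℓ) (AlgebraicClosure ℚ)
              (Coalgebra.counit a)) < 1

end Fermat.Agent.S59.LGC
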