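import Fermat.Agent.S33.H86_FlatInf
import Fermat.Agent.S59.LGC.DefsHopf
import Fermat.Agent.S59.LGC.Defs

/-!
# S59, case C, LGC-p, leaf NUQ-b (helper86): `K1` has no unramified quotient

* `flatInf_core` : the second half of `S33.H86.flatInf_padicPlace` with the Hopf algebra `H` and
  the identification `e` of its points GIVEN: a point `x` which reduces to the identity at
  `padicPlace p` (`IsRed (toLoc (e.symm x))`), with `p x ∈ N` and inertia fixing `x` modulo the
  decomposition-stable subgroup `N`, lies in `N`  (`p` odd; `subq_gen`).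
* `nsmul_eq_zero_of_inK1` : the classes of `K1(n)` are killed by `n`.
* `k1NoUnr_of_hopf : Stmt_HopfK1 → ∀ N p, Stmt_K1NoUnr N p`.
-/

set_option autoImplicit false
set_option linter.unusedSectionVars false
set_option linter.style.haveILetI false
set_option linter.unusedVariables false

noncomputable section

namespace Fermat.Agent.S59.LGC.H86

open scoped NNReal TensorProduct Pointwise
open Fermat.Agent.S56.FL Fermat.Agent.S56.FL.H54 Fermat.Agent.R Fermat.Agent.R.H54 WithConv
open Fermat.Agent.Lib.InertiaBridge Fermat.Agent.Lib.FrobExists Fermat.Agent.S33.H86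
open AlgebraicCurve ModularCurve

section Core

variable {p : ℕ} [Fact p.Prime]
variable {H : Type} [CommRing H] [HopfAlgebra (Zloc p) H]

/-- **The explicit form of `Stmt_FlatInf` at `padicPlace p`**: `H` and `e` are given, the
infinitesimal points are the points reducing to the identity. -/
theorem flatInf_core (hp2 : p ≠ 2) [Module.Finite (Zloc p) H] [Module.Flat (Zloc p) H]
    [Coalgebra.IsCocomm (Zloc p) H] (M : Type) [AddCommGroup M]
    (act : (AlgebraicClosure ℚ ≃ₐ[ℚ] AlgebraicClosure ℚ) → M → M)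
    (e : WithConv (H →ₐ[Zloc p] AlgebraicClosure ℚ) ≃ M)
    (hmul : ∀ f g : WithConv (H →ₐ[Zloc p] AlgebraicClosure ℚ), e (f * g) = e f + e g)
    (hact : ∀ (σ : AlgebraicClosure ℚ ≃ₐ[ℚ] AlgebraicClosure ℚ)
      (f g : WithConv (H →ₐ[Zloc p] AlgebraicClosure ℚ)),
      (∀ h : H, g h = σ (f h)) → e g = act σ (e f))
    (N : AddSubgroup M)
    (hN : ∀ σ ∈ (padicPlace p).decompositionSubgroup ℚ, ∀ x ∈ N, act σ x ∈ N)
    (x : M) (hxInf : IsRed (toLoc (e.symm x))) (hpx : p • x ∈ N)
    (hxI : ∀ σ ∈ (padicPlace p).inertiaSubgroupIn ℚ, act σ x - x ∈ N) : x ∈ N := by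
  classical
  have hp : p.Prime := Fact.out
  have he1 : e 1 = 0 := by
    have := hmul 1 1
    rw [mul_one] at this
    exact left_eq_add.mp this
  have hact' : ∀ (σ : AlgebraicClosure ℚ ≃ₐ[ℚ] AlgebraicClosure ℚ)
      (f : WithConv (H →ₐ[Zloc p] AlgebraicClosure ℚ)), e (globConj σ f) = act σ (e f) :=
    fun σ f => hact σ f _ (fun h => rfl)
  have hsymm_add : ∀ a b : M, e.symm (a + b) = e.symm a * e.symm b := by
    intro a b
    apply e.injective
    rw [e.apply_symm_apply, hmul, e.apply_symm_apply, e.apply_symm_apply]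
  have hsymm_zero : e.symm 0 = 1 := by
    apply e.injective
    rw [e.apply_symm_apply, he1]
  -- the local equivalence
  let eL : WithConv (H →ₐ[Zloc p] PadicAlgCl p) ≃ M := locEquiv.symm.trans e
  have hL : ∀ f : WithConv (H →ₐ[Zloc p] AlgebraicClosure ℚ), eL (toLoc f) = e f := by
    intro f
    show e (locEquiv.symm (toLoc f)) = e f
    rw [← locEquiv_apply, Equiv.symm_apply_apply]
  have hLsymm : ∀ m : M, eL.symm m = toLoc (e.symm m) := by
    intro m
    apply eL.injective
    rw [eL.apply_symm_apply, hL, e.apply_symm_apply]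
  have hLmul : ∀ x y : WithConv (H →ₐ[Zloc p] PadicAlgCl p), eL (x * y) = eL x + eL y := by
    intro x y
    obtain ⟨f, rfl⟩ := toLoc_surjective x
    obtain ⟨g, rfl⟩ := toLoc_surjective y
    rw [← map_mul, hL, hL, hL, hmul]
  have hLact : ∀ (σ : Gp p) (x : WithConv (H →ₐ[Zloc p] PadicAlgCl p)),
      eL (pointAct σ x) = act (localGaloisToGlobal p σ) (eL x) := by
    intro σ x
    obtain ⟨f, rfl⟩ := toLoc_surjective x
    rw [← toLoc_globConj, hL, hL, hact']
  have hL1 : eL 1 = 0 := by
    rw [← map_one (toLoc (H := H) (p := p)), hL, he1]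
  have hLpow : ∀ (x : WithConv (H →ₐ[Zloc p] PadicAlgCl p)) (n : ℕ), eL (x ^ n) = n • eL x := by
    intro x n
    induction n with
    | zero => rw [pow_zero, zero_smul, hL1]
    | succ n ih => rw [pow_succ, hLmul, ih, succ_nsmul]
  -- the local action is additive
  have hadd : ∀ (σ : Gp p) (a b : M), act (localGaloisToGlobal p σ) (a + b) =
      act (localGaloisToGlobal p σ) a + act (localGaloisToGlobal p σ) b := by
    intro σ a b
    have h1 : a + b = eL (eL.symm a * eL.symm b) := by
      rw [hLmul, eL.apply_symm_apply, eL.apply_symm_apply]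
    rw [h1, ← hLact, pointAct_mul_eq, hLmul, hLact, hLact, eL.apply_symm_apply,
      eL.apply_symm_apply]
  have hsub : ∀ (σ : Gp p) (a b : M), act (localGaloisToGlobal p σ) (a - b) =
      act (localGaloisToGlobal p σ) a - act (localGaloisToGlobal p σ) b := by
    intro σ a b
    have h1 := hadd σ (a - b) b
    rw [sub_add_cancel] at h1
    rw [h1, add_sub_cancel_right]
  have hcomp : ∀ (σ τ : Gp p) (a : M), act (localGaloisToGlobal p (σ * τ)) a =
      act (localGaloisToGlobal p σ) (act (localGaloisToGlobal p τ) a) := by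
    intro σ τ a
    have h1 : a = eL (eL.symm a) := (eL.apply_symm_apply a).symm
    rw [h1, ← hLact, pointAct_comp_eq, hLact, hLact]
  have hNloc : ∀ (σ : Gp p), ∀ m ∈ N, act (localGaloisToGlobal p σ) m ∈ N :=
    fun σ m hm => hN _ (localGaloisToGlobal_mem_decompositionSubgroup p σ) m hm
  let E₁ : Submonoid (WithConv (H →ₐ[Zloc p] PadicAlgCl p)) :=
    { carrier := {y | eL y ∈ N}
      mul_mem' := fun {a b} ha hb => by
        show eL (a * b) ∈ N
        rw [hLmul]
        exact N.add_mem ha hb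
      one_mem' := by
        show eL 1 ∈ N
        rw [hL1]
        exact N.zero_mem }
  let E₂ : Submonoid (WithConv (H →ₐ[Zloc p] PadicAlgCl p)) :=
    { carrier := {y | ∀ τ ∈ inertiaP p, act (localGaloisToGlobal p τ) (eL y) - eL y ∈ N}
      mul_mem' := fun {a b} ha hb => by
        intro τ hτ
        show act (localGaloisToGlobal p τ) (eL (a * b)) - eL (a * b) ∈ N
        rw [hLmul, hadd]
        have h1 : act (localGaloisToGlobal p τ) (eL a) + act (localGaloisToGlobal p τ) (eL b) -
            (eL a + eL b) = (act (localGaloisToGlobal p τ) (eL a) - eL a) +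
              (act (localGaloisToGlobal p τ) (eL b) - eL b) := by abel
        rw [h1]
        exact N.add_mem (ha τ hτ) (hb τ hτ)
      one_mem' := by
        intro τ hτ
        show act (localGaloisToGlobal p τ) (eL 1) - eL 1 ∈ N
        rw [hL1]
        exact N.sub_mem (hNloc τ 0 N.zero_mem) N.zero_mem }
  have h12 : E₁ ≤ E₂ := by
    intro y hy τ hτ
    exact N.sub_mem (hNloc τ _ hy) hy
  have hinvL : ∀ x y : WithConv (H →ₐ[Zloc p] PadicAlgCl p), y * x = 1 → eL y = - eL x := by
    intro x y hyx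
    have h1 : eL y + eL x = 0 := by rw [← hLmul, hyx, hL1]
    exact eq_neg_of_add_eq_zero_left h1
  have hinv₁ : ∀ x ∈ E₁, ∀ y : WithConv (H →ₐ[Zloc p] PadicAlgCl p), y * x = 1 → y ∈ E₁ := by
    intro x hx y hyx
    show eL y ∈ N
    rw [hinvL x y hyx]
    exact N.neg_mem hx
  have hinv₂ : ∀ x ∈ E₂, ∀ y : WithConv (H →ₐ[Zloc p] PadicAlgCl p), y * x = 1 → y ∈ E₂ := by
    intro x hx y hyx τ hτ
    show act (localGaloisToGlobal p τ) (eL y) - eL y ∈ N
    rw [hinvL x y hyx]
    have h1 : act (localGaloisToGlobal p τ) (- eL x) = - act (localGaloisToGlobal p τ) (eL x) := by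
      have h2 := hsub τ 0 (eL x)
      have h3 := hsub τ 0 0
      rw [sub_zero] at h3
      have h4 : act (localGaloisToGlobal p τ) 0 = 0 := by
        have h5 := hadd τ 0 0
        rw [add_zero] at h5
        exact left_eq_add.mp h5
      rw [zero_sub, h4, zero_sub] at h2
      exact h2
    rw [h1]
    have h5 : - act (localGaloisToGlobal p τ) (eL x) - - eL x =
        - (act (localGaloisToGlobal p τ) (eL x) - eL x) := by abel
    rw [h5]
    exact N.neg_mem (hx τ hτ)
  have hE₁ : ∀ (σ : Gp p), ∀ x ∈ E₁, pointAct σ x ∈ E₁ := by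
    intro σ x hx
    show eL (pointAct σ x) ∈ N
    rw [hLact]
    exact hNloc σ _ hx
  have hE₂ : ∀ (σ : Gp p), ∀ x ∈ E₂, pointAct σ x ∈ E₂ := by
    intro g x hx τ hτ
    show act (localGaloisToGlobal p τ) (eL (pointAct g x)) - eL (pointAct g x) ∈ N
    rw [hLact, ← hcomp]
    have h1 : τ * g = g * (g⁻¹ * τ * g) := by group
    rw [h1, hcomp, ← hsub]
    exact hNloc g _ (hx _ (conj_mem_inertiaP hτ g))
  have hin : ∀ σ ∈ inertiaP p, ∀ x ∈ E₂, ∃ y ∈ E₁, pointAct σ x = x * y := by
    intro σ hσ x hx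
    refine ⟨eL.symm (act (localGaloisToGlobal p σ) (eL x) - eL x), ?_, ?_⟩
    · show eL (eL.symm (act (localGaloisToGlobal p σ) (eL x) - eL x)) ∈ N
      rw [eL.apply_symm_apply]
      exact hx σ hσ
    · apply eL.injective
      rw [hLmul, eL.apply_symm_apply, hLact]
      abel
  have hx2 : eL.symm x ∈ E₂ := by
    intro τ hτ
    show act (localGaloisToGlobal p τ) (eL (eL.symm x)) - eL (eL.symm x) ∈ N
    rw [eL.apply_symm_apply]
    exact hxI _ (localGaloisToGlobal_mem_inertia hτ)
  have hxp : (eL.symm x) ^ p ∈ E₁ := by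
    show eL ((eL.symm x) ^ p) ∈ N
    rw [hLpow, eL.apply_symm_apply]
    exact hpx
  have hred : ∀ h : H, ‖(eL.symm x).ofConv h -
      algebraMap (Zloc p) (PadicAlgCl p) (Coalgebra.counit h)‖ < 1 := by
    rw [hLsymm]
    exact hxInf
  have hmain := subq_gen hp2 H E₁ E₂ h12 hinv₁ hinv₂ hE₁ hE₂ hin (eL.symm x) hx2 hxp hred
  have : eL (eL.symm x) ∈ N := hmain
  rwa [eL.apply_symm_apply] at this


end Core

section Tors

open Fermat.Agent.BAD Fermat.Agent.S19 Fermat.Agent.S19.H32

/-- The classes of `K1(n)` are killed by `n`. -/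
theorem nsmul_eq_zero_of_inK1 (A : ValuationSubring (AlgebraicClosure ℚ)) (N n : ℕ)
    (x : JZero N) (hx : InK1 A N n x) : n • x = 0 := by
  obtain ⟨D, f, rfl, hres, hD⟩ := hx
  have hf0 : ((f : ↥(gaussV A N)) : ↥(FNbar N)) ≠ 0 := by
    intro h0
    have h1 : f = 0 := Subtype.ext h0
    rw [h1, map_zero] at hres
    exact zero_ne_one hres
  have h1 : (n • (Pic0.mk D : JZero N)) = Pic0.mk (n • D) := rfl
  rw [h1]
  refine (QuotientAddGroup.eq_zero_iff _).2 (AddSubgroup.mem_addSubgroupOf.2 ?_)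
  refine ⟨((f : ↥(gaussV A N)) : ↥(FNbar N)), hf0, fun P => ?_⟩
  rw [← hD P]
  simp

variable {p : ℕ} [Fact p.Prime]

/-- **NUQ-b**: the kernel of reduction `K1(p^k)` of `J₀(N)` has no unramified quotient, from the
finite flat model with the reduction clause. -/
theorem k1NoUnr_of_hopf (hH : Stmt_HopfK1) (N p : ℕ) [NeZero N] [Fact p.Prime] :
    Stmt_K1NoUnr N p := by
  intro hp2 hpN k Nsub hNsub x hxK hpx hxI
  obtain ⟨H, _, _, hfin, hflat, hcoc, e, hmul, hact, hcl⟩ :=
    hH N p hpN k (padicPlace p) padicPlace_liesOverPrime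
  haveI := hfin
  haveI := hflat
  haveI := hcoc
  -- the torsion point
  have hx0 : (p ^ k) • x = 0 := nsmul_eq_zero_of_inK1 (padicPlace p) N (p ^ k) x hxK
  have hxT : x ∈ Submodule.torsionBy ℤ (JZero N) ((p : ℤ) ^ k) := by
    rw [Submodule.mem_torsionBy_iff]
    have h1 : ((p : ℤ) ^ k) = ((p ^ k : ℕ) : ℤ) := by push_cast; rfl
    rw [h1, natCast_zsmul]
    exact hx0
  let x' : Tors N ((p : ℤ) ^ k) := ⟨x, hxT⟩
  let N' : AddSubgroup (Tors N ((p : ℤ) ^ k)) :=
    Nsub.comap ((Submodule.torsionBy ℤ (JZero N) ((p : ℤ) ^ k)).subtype.toAddMonoidHom)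
  have hmem : ∀ y : Tors N ((p : ℤ) ^ k), y ∈ N' ↔ (y : JZero N) ∈ Nsub := fun y => Iff.rfl
  have hx' : x' ∈ N' := by
    refine flatInf_core (p := p) (H := H) hp2 (Tors N ((p : ℤ) ^ k))
      (torsAct N ((p : ℤ) ^ k)) e hmul hact N' ?_ x' ?_ ?_ ?_
    · intro σ hσ y hy
      rw [hmem] at hy ⊢
      exact hNsub σ hσ _ hy
    · -- `K1 ⊆ Inf`
      intro a
      have h1 := hcl (e.symm x') (by rw [e.apply_symm_apply]; exact hxK) a
      rw [valuation_padicPlace_lt_one_iff, map_sub] at h1
      rw [toLoc_apply]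
      have h2 : padicEmbedding p (algebraMap (GaloisRep.ratLocalizedAt p) (AlgebraicClosure ℚ)
          (Coalgebra.counit a)) = algebraMap (Zloc p) (PadicAlgCl p) (Coalgebra.counit a) :=
        (embZ p).commutes _
      rw [h2] at h1
      exact h1
    · rw [hmem]
      exact hpx
    · intro σ hσ
      rw [hmem]
      exact hxI σ hσ
  exact (hmem x').1 hx'

end Tors

end Fermat.Agent.S59.LGC.H86

end
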