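import Fermat.Agent.S59.LGC.H54_LGC
import Fermat.Agent.S59.LGC.H54_ESp
import Fermat.Agent.S59.LGC.H36_FL
import Fermat.Agent.S59.LGC.H38_HopfK1
import Fermat.Agent.S59.LGC.H86_NUQb
import Fermat.Agent.S59.LGC.H5_Conj

/-!
# S59, case C, LGC-p: `CaseC.Geom.Stmt_LGCpt`, unconditionally  (helper54)

Assembly of the leaves: (ES-p) `H54.stmt_TorsESp`, (FL) `H36.stmt_FLGenCoreK1`,
(NUQ-a) `H38.hopfK1_of`, (NUQ-b) `H86.k1NoUnr_of_hopf`, (VEC) `H54.lgcpt0_of`,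
(CONJ) `H5.lgcpt_of_padicPlace`.
-/

set_option autoImplicit false

namespace Fermat.Agent.S59.LGC.H54

/-- **(NUQ)**, unconditionally. -/
theorem stmt_K1NoUnr (N p : ℕ) [NeZero N] [Fact p.Prime] : Stmt_K1NoUnr N p :=
  Fermat.Agent.S59.LGC.H86.k1NoUnr_of_hopf
    (Fermat.Agent.S59.LGC.H38.hopfK1_of Fermat.Agent.S59.LGC.H36.stmt_FLGenCoreK1) N p

/-- **LGC at the place `padicPlace p`**, unconditionally. -/
theorem stmt_LGCpt0 : Stmt_LGCpt0 :=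
  lgcpt0_of (fun N p _ => stmt_TorsESp N p) (fun N p _ _ => stmt_K1NoUnr N p)

/-- **LGC-pt** (`S59.CaseC.Geom.Stmt_LGCpt`), unconditionally: the eigenvalue `z` of a Frobenius
element at `P ∣ p` on the unramified quotient `V / ℒ` satisfies `z² - a_p z + p = 0`. -/
theorem stmt_LGCpt : Fermat.Agent.S59.CaseC.Geom.Stmt_LGCpt :=
  Fermat.Agent.S59.LGC.H5.lgcpt_of_padicPlace stmt_LGCpt0

end Fermat.Agent.S59.LGC.H54
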