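import Fermat.Agent.FL.Defs6
import Fermat.Agent.FL.Defs4
import Fermat.Agent.S19.H32_FinCont
import Fermat.Agent.BAD.Defs

/-!
# S59, case C, LGC-p (helper54): the finite flat coordinates WITH the reduction clause

The coordinates `h j` of G-FL (S19) on `J₀(N)[ℓ^k]`, `ℓ ∤ N`, have one more property which the
S19 chain does not export: **two points with the same reduction have congruent coordinates**
(the coordinates are the indicators of the reduction classes and the entries of the integral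
echelon bases `M x`, which depend on `x` only through `L(B₁ - E x)`, whose reduction depends
only on the reduction of `x`).  With this clause the points of the Hopf order which reduce to
the identity CONTAIN the kernel of reduction `K1` (`BAD.InK1`), so that `R.Stmt_FlatInf`
("a connected finite flat group scheme has no unramified quotient", `p` odd) applies to `K1`.

* `RedZero S z`        : the class `z` has a representative whose reduction is the zero divisor.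
* `HasIntCoordsK1`, `Stmt_FLAbsK1`   : `FL.Stmt_FLAbs` + the clause.   [copy of
  `FL.H36.stmt_FLAbs_of`; clause: `RedZero (x - y)` ⟹ `CS.cls x = CS.cls y` (`Stmt_RedLinEq`,
  `l~(r_* E x) = 1`) ⟹ `(M x).map rc = (M y).map rc` (`IsEch`, `Stmt_EchUnique`).]
* `Stmt_FLTameCK1`     : `FL.Stmt_FLTameC` + the clause for `BAD.InK1`.   [copy of
  `FL.H33.stmt_FLTameC_of`; `InK1 A M n z`, `n ≠ 0` ⟹ `RedZero (tameSetup ..) z` by `RedSetup.DI`.]
* `Stmt_FLGenCoreK1`   : `S19.H32.Stmt_FLGenCore` for EVERY place `A` over `ℓ` + the clause.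
  [copy of `S19.H32.flGenCore_of_tame`; `InK1 A N n x → InK1 A M n (levelPull x)`:
  `FL.H2.pullD_kummer`, the Laurent series of `inclFN f` is that of `f`.]

Definitions only.
-/

set_option autoImplicit false

noncomputable section

open AlgebraicCurve ModularCurve

namespace Fermat.Agent.S59.LGC

open Fermat.Agent.FL Fermat.Agent.RED Fermat.Agent.RED.H17 Fermat.Agent.Lib.HopfOrder
  Fermat.Agent.Lib.HopfOrderLoc Fermat.Agent.S19 Fermat.Agent.S19.H32

/-- The class `z` has a representative whose reduction is the zero divisor. -/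
def RedZero {K F k F' : Type} [Field K] [Field F] [Algebra K F] [Field k] [Field F']
    [Algebra k F'] (S : RedSetup K F k F') (z : Pic0 K F) : Prop :=
  ∃ D : Divisor.degZero (K := K) (F := F), Pic0.mk D = z ∧
    Finsupp.mapDomain S.r (D : Divisor K F) = 0

/-- `FL.HasIntCoords` with the reduction clause: points of `𝒮` whose difference reduces to zero
have congruent coordinates. -/
def HasIntCoordsK1 {K F k F' : Type} [Field K] [Field F] [Algebra K F] [Field k] [Field F']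
    [Algebra k F'] (S : RedSetup K F k F') {Γ : Type} [Group Γ] (G : GalRed S Γ)
    (𝒮 : Set (Pic0 K F)) : Prop :=
  ∃ (ι : Type) (_ : Finite ι) (h : ι → 𝒮 → K),
    (∀ j x, h j x ∈ constVal S) ∧
    (∀ j, ∀ σ ∈ G.I, ∀ (x : 𝒮) (hx : G.act σ • (x : Pic0 K F) ∈ 𝒮),
      h j ⟨_, hx⟩ = SemilinearAut.baseAut (G.act σ) (h j x)) ∧
    (∀ j (σ : Γ), ∃ φ ∈ genRing (constVal S).toSubring h,
      ∀ (x : 𝒮) (hx : G.act σ • (x : Pic0 K F) ∈ 𝒮),
        φ ⟨_, hx⟩ = SemilinearAut.baseAut (G.act σ) (h j x)) ∧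
    (∀ x y : 𝒮, x ≠ y → ∃ j, h j x ≠ h j y) ∧
    (∀ j, ∃ φ ∈ pairRing (constVal S).toSubring h,
      ∀ (x y : 𝒮) (hxy : (x : Pic0 K F) + (y : Pic0 K F) ∈ 𝒮), φ (x, y) = h j ⟨_, hxy⟩) ∧
    (∀ x y : 𝒮, RedZero S ((x : Pic0 K F) - (y : Pic0 K F)) →
      ∀ j, (constVal S).valuation (h j x - h j y) < 1)

/-- **The abstract main theorem of G-FL with the reduction clause.** -/
def Stmt_FLAbsK1 : Prop :=
  ∀ (K F k F' : Type) [Field K] [Field F] [Algebra K F] [Field k] [Field F'] [Algebra k F']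
    [IsAlgClosed K] [IsAlgClosed k] (S : RedSetup K F k F'), IsFF K F → IsFF k F' →
    S.GenusLE' →
  ∀ (Γ : Type) [Group Γ] (G : GalRed S Γ), HasUnrConst S G → HasRatFrames S G →
  ∀ 𝒮 : Set (Pic0 K F), 𝒮.Finite → (∀ (σ : Γ), ∀ x ∈ 𝒮, G.act σ • x ∈ 𝒮) →
    HasIntCoordsK1 S G 𝒮

/-- **The concrete main theorem of G-FL at a tame level with the reduction clause.** -/
def Stmt_FLTameCK1 : Prop :=
  ∀ (M ℓ : ℕ) [NeZero M], ℓ.Prime → ¬ ℓ ∣ M → IsTame M ℓ →
  ∀ A : ValuationSubring (AlgebraicClosure ℚ), A.LiesOverPrime ℓ →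
  ∀ 𝒮 : Set (JZero M), 𝒮.Finite →
    (∀ σ ∈ A.decompositionSubgroup ℚ, ∀ x ∈ 𝒮, σ • x ∈ 𝒮) →
    ∃ (ι : Type) (_ : Finite ι) (h : ι → 𝒮 → AlgebraicClosure ℚ),
      (∀ j x, h j x ∈ A) ∧
      (∀ j, ∀ σ ∈ A.inertiaSubgroupIn ℚ, ∀ (x : 𝒮) (hx : σ • (x : JZero M) ∈ 𝒮),
        h j ⟨_, hx⟩ = σ (h j x)) ∧
      (∀ j, ∀ σ ∈ A.decompositionSubgroup ℚ, ∃ φ ∈ genRing A.toSubring h,
        ∀ (x : 𝒮) (hx : σ • (x : JZero M) ∈ 𝒮), φ ⟨_, hx⟩ = σ (h j x)) ∧
      (∀ x y : 𝒮, x ≠ y → ∃ j, h j x ≠ h j y) ∧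
      (∀ j, ∃ φ ∈ pairRing A.toSubring h,
        ∀ (x y : 𝒮) (hxy : (x : JZero M) + (y : JZero M) ∈ 𝒮), φ (x, y) = h j ⟨_, hxy⟩) ∧
      (∀ x y : 𝒮, ∀ n : ℕ, n ≠ 0 →
        Fermat.Agent.BAD.InK1 A M n ((x : JZero M) - (y : JZero M)) →
        ∀ j, A.valuation (h j x - h j y) < 1)

/-- **Local generators of `J₀(N)[ℓ^k]`, `ℓ ∤ N`, at EVERY place `A` over `ℓ`, with the reduction
clause**: if `x - y ∈ K1(ℓ^k)` then `h j x ≡ h j y` modulo the maximal ideal of `A`. -/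
def Stmt_FLGenCoreK1 : Prop :=
  ∀ (N : ℕ) [NeZero N] (ℓ : ℕ) [Fact ℓ.Prime], ¬ ℓ ∣ N → ∀ k : ℕ,
    ∀ A : ValuationSubring (AlgebraicClosure ℚ), A.LiesOverPrime ℓ →
    ∃ (ι : Type) (_ : Finite ι) (h : ι → Tors N ((ℓ : ℤ) ^ k) → AlgebraicClosure ℚ),
      (∀ j x, h j x ∈ A) ∧
      (∀ j, ∀ σ ∈ A.inertiaSubgroupIn ℚ, ∀ x,
        h j (torsAct N ((ℓ : ℤ) ^ k) σ x) = σ (h j x)) ∧
      (∀ j, ∀ σ ∈ A.decompositionSubgroup ℚ,
        twist (torsAct N ((ℓ : ℤ) ^ k)) σ (h j) ∈ genRing A.toSubring h) ∧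
      (∀ x y, x ≠ y → ∃ j, h j x ≠ h j y) ∧
      (∀ j, (fun q : Tors N ((ℓ : ℤ) ^ k) × Tors N ((ℓ : ℤ) ^ k) => h j (q.1 + q.2)) ∈
        pairRing A.toSubring h) ∧
      (∀ x y : Tors N ((ℓ : ℤ) ^ k),
        Fermat.Agent.BAD.InK1 A N (ℓ ^ k) ((x : JZero N) - (y : JZero N)) →
        ∀ j, A.valuation (h j x - h j y) < 1)

end Fermat.Agent.S59.LGC
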