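import Fermat.Agent.S59.CaseC.Geom.Defs
import Fermat.Prelude.Def_GaloisRep_CompletionBridge

/-!
# S59, case C, LGC-p (helper54): the vector-level target at the place `padicPlace p`

* `Stmt_LGCpt0` : `CaseC.Geom.Stmt_LGCpt` for the single place `P = padicPlace p`.
* Leaf CONJ : `lgcpt_of_padicPlace : Stmt_LGCpt0 → CaseC.Geom.Stmt_LGCpt`.
  [All places over `p` are conjugate: `P = τ • padicPlace p`; `ℒ' := ρ(τ)⁻¹ ℒ` is an ordinary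
  line at `padicPlace p`, `g' := τ⁻¹ g τ` is a Frobenius element at `padicPlace p` with the same
  eigenvalue `z` on the quotient.  Tools: `S33.H86.mem_decomposition_conj`,
  `S33.H86.mem_inertia_conj`, `Lib.InertiaConj`, `Lib.FrobExists`.]

Definitions only.
-/

set_option autoImplicit false

open Polynomial CuspForm CongruenceSubgroup ModularFormClass IsLocalRing

namespace Fermat.Agent.S59.LGC

open Fermat.Agent.S59 Fermat.Agent.S59.CaseC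

/-- `CaseC.Geom.Stmt_LGCpt` at the place `padicPlace p`. -/
def Stmt_LGCpt0 : Prop :=
  ∀ (𝒪 : Type) [CommRing 𝒪] [IsDomain 𝒪] [IsDiscreteValuationRing 𝒪]
    [IsAdicComplete (maximalIdeal 𝒪) 𝒪] [Finite (ResidueField 𝒪)] [CharZero 𝒪]
    (p : ℕ) [Fact p.Prime], p ≠ 2 → (p : 𝒪) ∈ maximalIdeal 𝒪 →
    ∀ (N : ℕ) [NeZero N] (S : Finset ℕ), p ∈ S → (∀ q : ℕ, q.Prime → q ∣ N → q ∈ S) →
    ∀ (hp : p.Prime) (hpN : ¬ p ∣ N) (hpS : p ∉ (↑(S.erase p) : Set ℕ))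
      (xt : CuspForm.heckeAlgebra N 2 (↑(S.erase p) : Set ℕ) →+* 𝒪) (ρ : GaloisRepAdic 𝒪),
    (∀ (ℓ : ℕ) (hℓ : ℓ.Prime) (hℓN : ¬ ℓ ∣ N) (hℓS : ℓ ∉ (↑(S.erase p) : Set ℕ)), ℓ ≠ p →
      ∀ B : ValuationSubring (AlgebraicClosure ℚ), B.LiesOverPrime ℓ →
        ∀ σ : AlgebraicClosure ℚ ≃ₐ[ℚ] AlgebraicClosure ℚ, B.IsFrobeniusAt σ ℓ →
          LinearMap.charpoly (ρ.ρ σ) =
            X ^ 2 - C (xt (CuspForm.heckeAlgebra.T hℓ hℓN hℓS)) * X + C ((ℓ : 𝒪))) →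
    ρ.DetIsCyclotomic p → ρ.residual.IsAbsolutelyIrreducible →
    ∀ (ℒ : OrdLine ρ (padicPlace p)) (g : AlgebraicClosure ℚ ≃ₐ[ℚ] AlgebraicClosure ℚ),
      (padicPlace p).IsFrobeniusAt g p →
    ∀ z : 𝒪, ℒ.IsQuotEigen g z →
      z ^ 2 - xt (CuspForm.heckeAlgebra.T hp hpN hpS) * z + (p : 𝒪) = 0

end Fermat.Agent.S59.LGC
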