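import Mathlib

/-!
# S59, case C, LGC-p: groups without unramified quotients (pure algebra)  (helper54)

`G` a group acting additively on `W` (`act : G → W →+ W`), `D, I ⊆ G` ("decomposition" and
"inertia", `I ⊆ D`), `p : ℕ`.  A subgroup `K` of `W` has **no unramified quotient**
(`NUQ p act D I K`) if for every `D`-stable subgroup `Nsub` and every `κ ∈ K` with
`p κ ∈ Nsub` whose class modulo `Nsub` is fixed by `I`, one has `κ ∈ Nsub`.

* `NUQ.pow`  : the same with `p ^ j κ ∈ Nsub`;
* `NUQ.map`  : images under equivariant homomorphisms;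
* `NUQ.sup`, `NUQ.finset_sup` : (finite) sums of `D`-stable subgroups;
* `nuq_span` : the span over a finite ring `R` of the image of `K` in an `R`-module on which
  `G` acts `R`-linearly.
-/

set_option autoImplicit false
set_option linter.unusedSectionVars false

namespace Fermat.Agent.S59.LGC.H54

section NUQ

variable {G W W' : Type} [AddCommGroup W] [AddCommGroup W']

/-- `Nsub` is stable under `D`. -/
def DStable (act : G → W →+ W) (D : Set G) (Nsub : AddSubgroup W) : Prop :=
  ∀ σ ∈ D, ∀ w ∈ Nsub, act σ w ∈ Nsub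

/-- `K` has no unramified quotient. -/
def NUQ (p : ℕ) (act : G → W →+ W) (D I : Set G) (K : AddSubgroup W) : Prop :=
  ∀ Nsub : AddSubgroup W, DStable act D Nsub →
    ∀ κ ∈ K, p • κ ∈ Nsub → (∀ σ ∈ I, act σ κ - κ ∈ Nsub) → κ ∈ Nsub

variable {p : ℕ} {act : G → W →+ W} {act' : G → W' →+ W'} {D I : Set G}

theorem DStable.sup {A B : AddSubgroup W} (hA : DStable act D A) (hB : DStable act D B) :
    DStable act D (A ⊔ B) := by
  intro σ hσ w hw
  obtain ⟨a, ha, b, hb, rfl⟩ := AddSubgroup.mem_sup.1 hw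
  rw [map_add]
  exact AddSubgroup.mem_sup.2 ⟨_, hA σ hσ a ha, _, hB σ hσ b hb, rfl⟩

theorem DStable.bot : DStable act D (⊥ : AddSubgroup W) := by
  intro σ _ w hw
  rw [AddSubgroup.mem_bot] at hw ⊢
  rw [hw, map_zero]

theorem DStable.finset_sup {ι : Type} (K : ι → AddSubgroup W)
    (hK : ∀ i, DStable act D (K i)) (s : Finset ι) : DStable act D (s.sup K) := by
  classical
  induction s using Finset.induction_on with
  | empty =>
    rw [Finset.sup_empty]
    exact DStable.bot
  | insert a s _ ih =>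
    rw [Finset.sup_insert]
    exact (hK a).sup ih

theorem DStable.map {K : AddSubgroup W} (hK : DStable act D K) (f : W →+ W')
    (hf : ∀ σ ∈ D, ∀ w, f (act σ w) = act' σ (f w)) : DStable act' D (K.map f) := by
  rintro σ hσ _ ⟨w, hw, rfl⟩
  exact ⟨act σ w, hK σ hσ w hw, hf σ hσ w⟩

/-- the `p`-power form. -/
theorem NUQ.pow {K : AddSubgroup W} (h : NUQ p act D I K) (Nsub : AddSubgroup W)
    (hN : DStable act D Nsub) (j : ℕ) :
    ∀ κ ∈ K, p ^ j • κ ∈ Nsub → (∀ σ ∈ I, act σ κ - κ ∈ Nsub) → κ ∈ Nsub := by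
  induction j with
  | zero =>
    intro κ _ h0 _
    rwa [pow_zero, one_smul] at h0
  | succ j ih =>
    intro κ hκ h1 h2
    refine ih κ hκ ?_ h2
    refine h Nsub hN (p ^ j • κ) (K.nsmul_mem hκ _) ?_ ?_
    · rw [← mul_smul, ← pow_succ']
      exact h1
    · intro σ hσ
      have e : act σ (p ^ j • κ) - p ^ j • κ = p ^ j • (act σ κ - κ) := by
        rw [map_nsmul, nsmul_sub]
      rw [e]
      exact Nsub.nsmul_mem (h2 σ hσ) _

/-- images under equivariant homomorphisms. -/
theorem NUQ.map {K : AddSubgroup W} (h : NUQ p act D I K) (hID : I ⊆ D) (f : W →+ W')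
    (hf : ∀ σ ∈ D, ∀ w, f (act σ w) = act' σ (f w)) : NUQ p act' D I (K.map f) := by
  rintro Nsub hN _ ⟨κ, hκ, rfl⟩ h1 h2
  have hc : DStable act D (Nsub.comap f) := by
    intro σ hσ w hw
    show f (act σ w) ∈ Nsub
    rw [hf σ hσ w]
    exact hN σ hσ _ hw
  refine h (Nsub.comap f) hc κ hκ ?_ ?_
  · show f (p • κ) ∈ Nsub
    rw [map_nsmul]
    exact h1
  · intro σ hσ
    show f (act σ κ - κ) ∈ Nsub
    rw [map_sub, hf σ (hID hσ) κ]
    exact h2 σ hσ

/-- sums. -/
theorem NUQ.sup {A B : AddSubgroup W} (hA : NUQ p act D I A) (hB : NUQ p act D I B)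
    (hID : I ⊆ D) (hBs : DStable act D B) : NUQ p act D I (A ⊔ B) := by
  intro Nsub hN κ hκ h1 h2
  obtain ⟨a, ha, b, hb, rfl⟩ := AddSubgroup.mem_sup.1 hκ
  have hNB : DStable act D (Nsub ⊔ B) := hN.sup hBs
  have ha' : a ∈ Nsub ⊔ B := by
    refine hA (Nsub ⊔ B) hNB a ha ?_ ?_
    · have e : p • a = p • (a + b) + (- (p • b)) := by
        rw [nsmul_add]
        abel
      rw [e]
      exact AddSubgroup.mem_sup.2 ⟨_, h1, _, B.neg_mem (B.nsmul_mem hb _), rfl⟩
    · intro σ hσ
      have e : act σ a - a = (act σ (a + b) - (a + b)) + (- (act σ b - b)) := by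
        rw [map_add]
        abel
      rw [e]
      exact AddSubgroup.mem_sup.2 ⟨_, h2 σ hσ, _,
        B.neg_mem (B.sub_mem (hBs σ (hID hσ) b hb) hb), rfl⟩
  obtain ⟨n, hn, b', hb', hab⟩ := AddSubgroup.mem_sup.1 ha'
  have hb'' : b' + b ∈ Nsub := by
    refine hB Nsub hN (b' + b) (B.add_mem hb' hb) ?_ ?_
    · have e : p • (b' + b) = p • (a + b) - p • n := by
        rw [← hab]
        simp only [nsmul_add]
        abel
      rw [e]
      exact Nsub.sub_mem h1 (Nsub.nsmul_mem hn _)
    · intro σ hσ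
      have e : act σ (b' + b) - (b' + b) =
          (act σ (a + b) - (a + b)) - (act σ n - n) := by
        rw [← hab]
        simp only [map_add]
        abel
      rw [e]
      exact Nsub.sub_mem (h2 σ hσ) (Nsub.sub_mem (hN σ (hID hσ) n hn) hn)
  have e : a + b = n + (b' + b) := by
    rw [← hab]
    abel
  rw [e]
  exact Nsub.add_mem hn hb''

theorem NUQ.bot : NUQ p act D I (⊥ : AddSubgroup W) := by
  intro Nsub _ κ hκ _ _
  rw [AddSubgroup.mem_bot] at hκ
  rw [hκ]
  exact Nsub.zero_mem

/-- finite sums. -/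
theorem NUQ.finset_sup {ι : Type} (K : ι → AddSubgroup W)
    (hK : ∀ i, NUQ p act D I (K i)) (hKs : ∀ i, DStable act D (K i)) (hID : I ⊆ D)
    (s : Finset ι) : NUQ p act D I (s.sup K) := by
  classical
  induction s using Finset.induction_on with
  | empty =>
    rw [Finset.sup_empty]
    exact NUQ.bot
  | insert a s _ ih =>
    rw [Finset.sup_insert]
    exact (hK a).sup ih hID (DStable.finset_sup K hKs s)

end NUQ

section Span

variable {G M W R : Type} [AddCommGroup M] [AddCommGroup W] [CommRing R] [Module R W]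
  [Fintype R]

/-- the homomorphism `x ↦ a • c x`. -/
def smulHom (c : M →+ W) (a : R) : M →+ W where
  toFun x := a • c x
  map_zero' := by rw [map_zero, smul_zero]
  map_add' x y := by rw [map_add, smul_add]

@[simp] theorem smulHom_apply (c : M →+ W) (a : R) (x : M) : smulHom c a x = a • c x := rfl

/-- the `R`-span of the image of `K`, as a finite sum of images. -/
def spanSup (c : M →+ W) (K : AddSubgroup M) : AddSubgroup W :=
  Finset.univ.sup fun a : R => K.map (smulHom c a)

theorem smul_mem_spanSup (c : M →+ W) (K : AddSubgroup M) (a : R) {x : M} (hx : x ∈ K) :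
    a • c x ∈ spanSup (R := R) c K := by
  have h1 : K.map (smulHom c a) ≤ spanSup (R := R) c K :=
    Finset.le_sup (f := fun a : R => K.map (smulHom c a)) (Finset.mem_univ a)
  exact h1 ⟨x, hx, rfl⟩

/-- **The span of a group without unramified quotient has no unramified quotient.** -/
theorem nuq_span {p : ℕ} {actM : G → M →+ M} {actW : G → W →+ W} {D I : Set G}
    (hID : I ⊆ D) (c : M →+ W) (hc : ∀ σ ∈ D, ∀ x, c (actM σ x) = actW σ (c x))
    (hlin : ∀ σ ∈ D, ∀ (a : R) (w : W), actW σ (a • w) = a • actW σ w)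
    {K : AddSubgroup M} (hK : NUQ p actM D I K) (hKs : DStable actM D K) :
    NUQ p actW D I (spanSup (R := R) c K) := by
  have hf : ∀ a : R, ∀ σ ∈ D, ∀ x, smulHom c a (actM σ x) = actW σ (smulHom c a x) := by
    intro a σ hσ x
    rw [smulHom_apply, smulHom_apply, hc σ hσ x, hlin σ hσ]
  exact NUQ.finset_sup _ (fun a => hK.map hID (smulHom c a) (hf a))
    (fun a => hKs.map (smulHom c a) (hf a)) hID Finset.univ

end Span

end Fermat.Agent.S59.LGC.H54
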