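import Fermat.Agent.S59.LGC.Defs
import Fermat.Agent.S59.LGC.H54_NUQ
import Fermat.Agent.FL.H33_ModCtx
import Fermat.Agent.GTor.H81_TateLimit
import Fermat.Agent.BAD.H91_B0
import Fermat.Agent.S33.New.H54_Level

/-!
# S59, case C, LGC-p: the kernel of reduction as a subgroup of `J₀(N)[n]`  (helper54)

* `inK1_zero`, `inK1_neg` (with `S33.New.H54.inK1_add`): `K1(n)` is a subgroup;
* `inK1_smul_of_mem_decomposition` : `K1(n)` is stable under the decomposition group of `A`;
* `k1Sub A N n : AddSubgroup (Jtor N n)`;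
* `dStable_k1Sub`, `nuq_k1Sub` : the statements in the language of `H54_NUQ.lean`.
-/

set_option autoImplicit false
set_option linter.unusedSectionVars false
set_option linter.unusedVariables false
set_option linter.style.haveILetI false
set_option synthInstance.maxHeartbeats 400000
set_option maxHeartbeats 4000000

noncomputable section

open AlgebraicCurve ModularCurve Fermat.Agent.S28.H73 Fermat.Agent.RED.H73

namespace Fermat.Agent.S59.LGC.H54

open Fermat.Agent.BAD Fermat.Agent.GTor Fermat.Agent.GTor.H81 Fermat.Agent.RED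
  Fermat.Agent.RED.H33 Fermat.Agent.FL.H33

section K1

variable {A : ValuationSubring (AlgebraicClosure ℚ)} {N n : ℕ}

theorem inK1_zero : InK1 A N n (0 : JZero N) := by
  refine ⟨0, 1, rfl, map_one _, fun P => ?_⟩
  show (n : ℤ) * (0 : Divisor (AlgebraicClosure ℚ) ↥(FNbar N)) P = P.ord (1 : ↥(FNbar N))
  rw [Place.ord_one, Finsupp.zero_apply, mul_zero]

theorem inK1_neg {x : JZero N} (hx : InK1 A N n x) : InK1 A N n (-x) := by
  obtain ⟨D, f, rfl, hf, hD⟩ := hx
  have hf0 := Fermat.Agent.S33.New.H54.ne_zero_of_gaussRes_one hf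
  have hu : IsUnit f := by
    by_contra hnu
    have hm : f ∈ IsLocalRing.maximalIdeal ↥(gaussV A N) := (IsLocalRing.mem_maximalIdeal f).2 hnu
    rw [← ker_gaussResF' A (hasScale_laurentBaseChange A N), RingHom.mem_ker] at hm
    have h0 : gaussRes A N f = 0 := hm
    rw [hf] at h0
    exact one_ne_zero h0
  obtain ⟨u, rfl⟩ := hu
  refine ⟨-D, ((u⁻¹ : (↥(gaussV A N))ˣ) : ↥(gaussV A N)), rfl, ?_, fun P => ?_⟩
  · have h1 : gaussRes A N ((u⁻¹ : (↥(gaussV A N))ˣ) : ↥(gaussV A N)) *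
        gaussRes A N (u : ↥(gaussV A N)) = 1 := by
      rw [← map_mul, Units.inv_mul, map_one]
    rw [hf, mul_one] at h1
    exact h1
  · have h2 : (((u⁻¹ : (↥(gaussV A N))ˣ) : ↥(gaussV A N)) : ↥(FNbar N)) =
        ((u : ↥(gaussV A N)) : ↥(FNbar N))⁻¹ := by
      have h3 : (((u⁻¹ : (↥(gaussV A N))ˣ) : ↥(gaussV A N)) : ↥(FNbar N)) *
          ((u : ↥(gaussV A N)) : ↥(FNbar N)) = 1 := by
        have := congrArg (fun z : ↥(gaussV A N) => (z : ↥(FNbar N))) (Units.inv_mul u)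
        exact this
      exact eq_inv_of_mul_eq_one_left h3
    rw [h2, Place.ord_inv, ← hD P]
    show (n : ℤ) * (-(D : Divisor (AlgebraicClosure ℚ) ↥(FNbar N))) P = _
    rw [Finsupp.neg_apply, mul_neg]

/-- `K1(n)` is stable under the decomposition group of `A`. -/
theorem inK1_smul_of_mem_decomposition {σ : GalQ} (hσ : σ ∈ A.decompositionSubgroup ℚ)
    {x : JZero N} (hx : InK1 A N n x) : InK1 A N n (σ • x) := by
  obtain ⟨D, f, rfl, hf, hD⟩ := hx
  have hmem : galF N σ • ((f : ↥(gaussV A N)) : ↥(FNbar N)) ∈ gaussV A N :=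
    arithmeticGalois_smul_mem A (modularFunctionFieldFull N) (hasScale_laurentBaseChange A N)
      ⟨σ, hσ⟩ (f : ↥(FNbar N)) f.2
  refine ⟨SemilinearAut.degZeroSMulHom (galF N σ) D, ⟨_, hmem⟩, ?_, ?_, fun P => ?_⟩
  · show galF N σ • (Pic0.mk D) = _
    rw [SemilinearAut.pic0_smul_mk]
  · have h1 := gaussResF'_arithmeticGalois_smul A (modularFunctionFieldFull N)
      (hasScale_laurentBaseChange A N) ⟨σ, hσ⟩ (f : ↥(FNbar N)) f.2
    have h2 : gaussResF' A (hasScale_laurentBaseChange A N) ⟨(f : ↥(FNbar N)), f.2⟩ = 1 := hf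
    rw [h2, smul_one] at h1
    exact h1
  · show _ = P.ord (galF N σ • ((f : ↥(gaussV A N)) : ↥(FNbar N)))
    rw [Fermat.Agent.BAD.H91.ord_galF_smul, ← hD, SemilinearAut.coe_degZeroSMulHom,
      SemilinearAut.divisor_smul_apply]

end K1

section Sub

variable (A : ValuationSubring (AlgebraicClosure ℚ)) (N : ℕ) [NeZero N] (n : ℕ)

/-- The kernel of reduction as a subgroup of `J₀(N)[n]`. -/
def k1Sub : AddSubgroup (Jtor N n) where
  carrier := {x | InK1 A N n (x : JZero N)}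
  zero_mem' := inK1_zero
  add_mem' := fun {a b} ha hb => Fermat.Agent.S33.New.H54.inK1_add ha hb
  neg_mem' := fun {a} ha => inK1_neg ha

theorem mem_k1Sub {x : Jtor N n} : x ∈ k1Sub A N n ↔ InK1 A N n (x : JZero N) := Iff.rfl

end Sub

section Tate

variable {N p : ℕ} [NeZero N]

/-- the Galois action on `J₀(N)[p^k]` as a family of additive maps. -/
def galAct (N p : ℕ) [NeZero N] (k : ℕ) (σ : GQ) : Jtor N (p ^ k) →+ Jtor N (p ^ k) :=
  TateCoords.galEnd (N := N) (p := p) k σ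

@[simp] theorem coe_galAct (k : ℕ) (σ : GQ) (x : Jtor N (p ^ k)) :
    ((galAct N p k σ x : Jtor N (p ^ k)) : JZero N) = σ • (x : JZero N) := rfl

theorem dStable_k1Sub (A : ValuationSubring (AlgebraicClosure ℚ)) (k : ℕ) :
    DStable (galAct N p k) (A.decompositionSubgroup ℚ : Set GQ) (k1Sub A N (p ^ k)) := by
  intro σ hσ x hx
  exact inK1_smul_of_mem_decomposition hσ hx

/-- **(NUQ)** in the language of `H54_NUQ.lean`. -/
theorem nuq_k1Sub [Fact p.Prime] (hNUQ : Stmt_K1NoUnr N p) (hp2 : p ≠ 2) (hpN : ¬ p ∣ N)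
    (k : ℕ) :
    NUQ p (galAct N p k) ((padicPlace p).decompositionSubgroup ℚ : Set GQ)
      ((padicPlace p).inertiaSubgroupIn ℚ : Set GQ) (k1Sub (padicPlace p) N (p ^ k)) := by
  intro Nsub hN κ hκ h1 h2
  have h3 := hNUQ hp2 hpN k (Nsub.map (Jtor N (p ^ k)).subtype) (by
    rintro σ hσ _ ⟨w, hw, rfl⟩
    exact ⟨galAct N p k σ w, hN σ hσ w hw, rfl⟩) (κ : JZero N) hκ
    ⟨p • κ, h1, rfl⟩ (fun σ hσ => ⟨galAct N p k σ κ - κ, h2 σ hσ, rfl⟩)
  obtain ⟨w, hw, hwκ⟩ := h3
  have : w = κ := Subtype.ext hwκ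
  rwa [← this]

end Tate

end Fermat.Agent.S59.LGC.H54
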