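import Fermat.Agent.S59.LGC.H54_Vec
import Fermat.Agent.S59.LGC.DefsVec
import Fermat.Agent.S33.New.H54_Wire

/-!
# S59, case C, LGC-p: the vector-level statement at `padicPlace p`  (helper54)

* `lgcpt0_of : (∀ N p, Stmt_TorsESp N p) → (∀ N p, Stmt_K1NoUnr N p) → Stmt_LGCpt0`.

`V` the given representation, `G : V → 𝒪^r` the split equivariant embedding into the Tate limit
of `J₀(N)` (`p ∤ N`), `ℒ` the ordinary line, `g` a Frobenius element at `padicPlace p` with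
eigenvalue `z` on `V / ℒ`, `Φ = ρL(g)² - T_p ρL(g) + p`, `e = z² - a_p z + p`.  For `v ∈ V`:
`Φ (G v) = G (φ v)` with `φ v ≡ e v` modulo `ℒ`.  Modulo `𝔪^k`: `κ = Φ (G v)` lies in the span
of `K1(p^k)` (ES-p), inertia fixes it modulo `Nsub = G(ℒ)`, which is stable under the
decomposition group, and `p^k κ = 0`; so `κ ∈ Nsub` by (NUQ), i.e. `e v ∈ ℒ + 𝔪^k V` for all
`k`; for `v = b 1` (`ℒ = 𝒪 b 0`) this gives `e ∈ 𝔪^k` for all `k`, so `e = 0`.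
-/

set_option autoImplicit false
set_option linter.unusedSectionVars false
set_option linter.unusedVariables false
set_option linter.style.haveILetI false
set_option synthInstance.maxHeartbeats 400000
set_option maxHeartbeats 4000000

open Polynomial IsLocalRing

noncomputable section

namespace Fermat.Agent.S59.LGC.H54

open AlgebraicCurve ModularCurve Fermat.Agent.GTor Fermat.Agent.GTor.H81
  Fermat.Agent.GTor.H58T1 Fermat.Agent.Betti.H76 Fermat.Agent.R Fermat.Agent.R.H86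
  Fermat.Agent.S32.H86 Fermat.Agent.S59 Fermat.Agent.S59.CaseC

/-- the coordinates of an element of `I • ⊤` lie in `I`. -/
theorem repr_mem_of_mem_smul_top {𝒪 V ι : Type} [CommRing 𝒪] [AddCommGroup V] [Module 𝒪 V]
    (b : Module.Basis ι 𝒪 V) (I : Ideal 𝒪) {x : V} (hx : x ∈ I • (⊤ : Submodule 𝒪 V))
    (i : ι) : b.repr x i ∈ I := by
  induction hx using Submodule.smul_induction_on' with
  | smul r hr m _ =>
    rw [map_smul, Finsupp.smul_apply, smul_eq_mul]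
    exact Ideal.mul_mem_right _ _ hr
  | add x _ y _ hx hy =>
    rw [map_add, Finsupp.add_apply]
    exact Ideal.add_mem _ hx hy

/-- the final step: `e b₁ ∈ 𝒪 b₀ + 𝔪^k V` for all `k` implies `e = 0`. -/
theorem eq_zero_of_forall_mem_line {𝒪 V : Type} [CommRing 𝒪] [IsLocalRing 𝒪]
    [IsNoetherianRing 𝒪] [AddCommGroup V] [Module 𝒪 V] (b : Module.Basis (Fin 2) 𝒪 V) (e : 𝒪)
    (h : ∀ k : ℕ, ∃ l ∈ Submodule.span 𝒪 {b 0},
      e • b 1 - l ∈ (maximalIdeal 𝒪 ^ k) • (⊤ : Submodule 𝒪 V)) : e = 0 := by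
  have h1 : ∀ k : ℕ, e ∈ maximalIdeal 𝒪 ^ k := by
    intro k
    obtain ⟨l, hl, hk⟩ := h k
    have h2 := repr_mem_of_mem_smul_top b _ hk 1
    obtain ⟨c, rfl⟩ := Submodule.mem_span_singleton.1 hl
    simpa using h2
  have h3 : e ∈ ⨅ k : ℕ, maximalIdeal 𝒪 ^ k := by
    rw [Ideal.mem_iInf]
    exact h1
  rw [Ideal.iInf_pow_eq_bot_of_isLocalRing _ (Ideal.IsPrime.ne_top inferInstance)] at h3
  exact h3

/-- **LGC-VEC**: the vector-level statement at `padicPlace p` from (ES-p) and (NUQ). -/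
theorem lgcpt0_of
    (hESp : ∀ (N p : ℕ) [NeZero N], Stmt_TorsESp N p)
    (hNUQ : ∀ (N p : ℕ) [NeZero N] [Fact p.Prime], Stmt_K1NoUnr N p) : Stmt_LGCpt0 := by
  intro 𝒪 _ _ _ _ _ _ p _ hp2 hp𝒪 N _ S hpSmem hNS hp hpN hpS xt ρ hρ hdet habs ℒ g hg z hz
  classical
  have hNS' : ∀ q : ℕ, q.Prime → q ∣ N → q ∈ (↑(S.erase p) : Set ℕ) := fun q hq hqN => by
    have hqp : q ≠ p := by
      rintro rfl
      exact hpN hqN
    exact Finset.mem_coe.2 (Finset.mem_erase.2 ⟨hqp, hNS q hq hqN⟩)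
  obtain ⟨C⟩ := tateCoords N p (↑(S.erase p) : Set ℕ) hp hNS'
  obtain ⟨L⟩ := exists_tateLimit C 𝒪 hp𝒪
  obtain ⟨Pc, hPc⟩ := exists_piece_eig L xt
  have hES : Stmt_TorsES N p := torsES_of_red hp (Fermat.Agent.R.H33.allRed N p)
  -- the Frobenius relation on the piece
  have hFrob : ∀ ℓ : ℕ, ℓ.Prime → ℓ ∉ S →
      ∀ A : ValuationSubring (AlgebraicClosure ℚ), A.LiesOverPrime ℓ →
        ∀ σ : Fermat.Agent.S30.GQ, A.IsFrobeniusAt σ ℓ →
          Pc.rep σ * Pc.rep σ - (LinearMap.trace 𝒪 ρ.V (ρ.ρ σ)) • Pc.rep σ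
            + (LinearMap.det (ρ.ρ σ)) • (1 : Matrix (Fin Pc.d) (Fin Pc.d) 𝒪) = 0 := by
    intro ℓ hℓ hℓS A hA σ hσ
    have hℓN : ¬ ℓ ∣ N := fun h => hℓS (hNS ℓ hℓ h)
    have hℓp : ℓ ≠ p := by
      rintro rfl
      exact hℓS hpSmem
    have hℓS' : ℓ ∉ (↑(S.erase p) : Set ℕ) := fun h =>
      hℓS (Finset.mem_of_mem_erase (Finset.mem_coe.1 h))
    have h1 := piece_ES L Pc hES hℓ hℓN hℓp hℓS' (xt (CuspForm.heckeAlgebra.T hℓ hℓN hℓS'))
      (hPc _) A hA σ hσ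
    obtain ⟨htr, hdet⟩ := trace_det_of_charpoly ρ.finrank_eq (ρ.ρ σ)
      (hρ ℓ hℓ hℓN hℓS' hℓp A hA σ hσ)
    rw [htr, hdet]
    exact h1
  have hCH := ch_all Fermat.Agent.Lib.FrobDensity.stmt_FD ρ Pc.rep (L.cont_piece Pc) S hFrob
  obtain ⟨G, R, hRG, hGeq, hGP⟩ := Fermat.Agent.S33.New.H54.exists_embedding_of_piece ρ habs
    Pc.pos L.ρL Pc.P Pc.Q Pc.QP Pc.rep (fun σ => Pc.rel_rep σ) hCH
  -- `T_p` acts as the scalar `a_p` on the image of `G`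
  set ap : 𝒪 := xt (CuspForm.heckeAlgebra.T hp hpN hpS) with hap
  have hTG : ∀ v, (Mc 𝒪 C.M (CuspForm.heckeAlgebra.T hp hpN hpS)).mulVec (G v) = ap • G v := by
    intro v
    obtain ⟨u, hu⟩ := hGP v
    rw [hu, Matrix.mulVec_mulVec, hPc, Matrix.smul_mulVec]
  -- the operator `Φ`
  set Φ : Matrix (Fin C.r) (Fin C.r) 𝒪 :=
    L.ρL g * L.ρL g - Mc 𝒪 C.M (CuspForm.heckeAlgebra.T hp hpN hpS) * L.ρL g
      + ((p : ℕ) : Matrix (Fin C.r) (Fin C.r) 𝒪) with hΦ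
  have hΦc : ∀ k : ℕ, (piK (maximalIdeal 𝒪) k).mapMatrix Φ =
      (cK (maximalIdeal 𝒪) p hp𝒪 k).mapMatrix (phiK C hp hpN hpS g k) := fun k =>
    ((((L.spec g).mul (L.spec g)).sub ((compat_Mc C.M _).mul (L.spec g))).add
      (compat_natCast p)) k
  have hΦG : ∀ v, Φ.mulVec (G v) =
      G (ρ.ρ g (ρ.ρ g v) - ap • ρ.ρ g v + (p : 𝒪) • v) := by
    intro v
    rw [hΦ, Matrix.add_mulVec, Matrix.sub_mulVec, ← Matrix.mulVec_mulVec,
      ← Matrix.mulVec_mulVec, ← hGeq, ← hGeq, hTG, Matrix.natCast_mulVec, map_add, map_sub,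
      map_smul, map_smul]
  -- `φ v ≡ e v` modulo the line
  set e : 𝒪 := z ^ 2 - ap * z + (p : 𝒪) with he
  have hφ : ∀ v, (ρ.ρ g (ρ.ρ g v) - ap • ρ.ρ g v + (p : 𝒪) • v) - e • v ∈ ℒ.L := by
    intro v
    have h1 := hz v
    have h2 := hz (ρ.ρ g v)
    have h3 : (ρ.ρ g (ρ.ρ g v) - ap • ρ.ρ g v + (p : 𝒪) • v) - e • v =
        (ρ.ρ g (ρ.ρ g v) - z • ρ.ρ g v) + (z - ap) • (ρ.ρ g v - z • v) := by
      rw [he]
      module
    rw [h3]
    exact ℒ.L.add_mem h2 (ℒ.L.smul_mem _ h1)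
  obtain ⟨b, hb⟩ := ℒ.isLine
  show e = 0
  apply eq_zero_of_forall_mem_line b e
  intro k
  -- the subgroup `Nsub` of `W_k`
  set f : ρ.V →+ (Fin C.r → 𝒪 ⧸ maximalIdeal 𝒪 ^ k) :=
    (piVec 𝒪 C.r k).comp G.toAddMonoidHom with hf
  have hfapp : ∀ v, f v = piVec 𝒪 C.r k (G v) := fun v => rfl
  have hfact : ∀ σ v, actW L k σ (f v) = f (ρ.ρ σ v) := by
    intro σ v
    rw [hfapp, hfapp, actW_apply, ← piVec_mulVec, hGeq]
  set Nsub : AddSubgroup (Fin C.r → 𝒪 ⧸ maximalIdeal 𝒪 ^ k) :=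
    ℒ.L.toAddSubgroup.map f with hNsub
  have hNst : DStable (actW L k) ((padicPlace p).decompositionSubgroup ℚ : Set GQ) Nsub := by
    rintro σ hσ _ ⟨l, hl, rfl⟩
    rw [hfact]
    exact ⟨_, ℒ.stable σ hσ l hl, rfl⟩
  set v : ρ.V := b 1 with hv
  set φv : ρ.V := ρ.ρ g (ρ.ρ g v) - ap • ρ.ρ g v + (p : 𝒪) • v with hφv
  have hκ : f φv ∈ kSpan C 𝒪 hp𝒪 (padicPlace p) k := by
    rw [hfapp, hφv, ← hΦG, piVec_mulVec, hΦc]
    exact phi_mem_kSpan (hESp N p) hp hpN hpS Fermat.Agent.S33.H86.padicPlace_liesOverPrime hg k _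
  have hpk : p ^ k • f φv ∈ Nsub := by
    have h0 : p ^ k • f φv = 0 := by
      rw [← map_nsmul, hfapp]
      funext i
      rw [piVec_apply, Pi.zero_apply, Ideal.Quotient.eq_zero_iff_mem, map_nsmul, Pi.smul_apply,
        nsmul_eq_mul, Nat.cast_pow]
      exact Ideal.mul_mem_right _ _ (Ideal.pow_mem_pow hp𝒪 k)
    rw [h0]
    exact Nsub.zero_mem
  have hin : ∀ σ ∈ ((padicPlace p).inertiaSubgroupIn ℚ : Set GQ),
      actW L k σ (f φv) - f φv ∈ Nsub := by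
    intro σ hσ
    rw [hfact, ← map_sub]
    exact ⟨_, ℒ.inertia σ hσ φv, rfl⟩
  obtain ⟨l, hl, hlκ⟩ := (nuq_kSpan L (hNUQ N p) hp2 hpN k).pow Nsub hNst k (f φv) hκ hpk hin
  -- back to `V`
  have hent : ∀ i, G (φv - l) i ∈ maximalIdeal 𝒪 ^ k := by
    intro i
    have h1 : f (φv - l) = 0 := by
      rw [map_sub, hlκ, sub_self]
    have h2 := congrFun h1 i
    rw [hfapp, piVec_apply, Pi.zero_apply, Ideal.Quotient.eq_zero_iff_mem] at h2
    exact h2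
  have hmem := Fermat.Agent.S33.New.H54.map_mem_smul_top_of_entries R (maximalIdeal 𝒪 ^ k) _ hent
  rw [hRG] at hmem
  refine ⟨l - (φv - e • v), ?_, ?_⟩
  · rw [← hb]
    exact ℒ.L.sub_mem hl (hφ v)
  · have h4 : e • b 1 - (l - (φv - e • v)) = φv - l := by
      rw [hv]
      abel
    rw [h4]
    exact hmem

end Fermat.Agent.S59.LGC.H54
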