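import Fermat.Agent.S59.LGC.H54_K1
import Fermat.Agent.GTor.H81_Clauses

/-!
# S59, case C, LGC-p: from the torsion-level statements to the Tate limit  (helper54)

Level `N`, `p ∤ N`, `C : TateCoords N p S` (`p ∉ S`), `L : TateLimit C 𝒪 hp`,
`W_k = (𝒪 / 𝔪^k)^r`, `g` a Frobenius element at `padicPlace p`,
`Φ = ρL(g)² - T_p ρL(g) + p`.

* `rho_ESp`   : (ES-p) in the coordinates of level `p^k`: `Φ_k x ∈ θ (K1(p^k))`;
* `cHom`, `actW`, `kSpan` : the map `J₀(N)[p^k] → W_k`, the Galois action on `W_k`, the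
  `𝒪 / 𝔪^k`-span of the image of `K1(p^k)`;
* `nuq_kSpan` : (NUQ) for `kSpan`;
* `phi_mem_kSpan` : `Φ W_k ⊆ kSpan`.
-/

set_option autoImplicit false
set_option linter.unusedSectionVars false
set_option linter.unusedVariables false
set_option linter.style.haveILetI false
set_option synthInstance.maxHeartbeats 400000
set_option maxHeartbeats 4000000

noncomputable section

namespace Fermat.Agent.S59.LGC.H54

open AlgebraicCurve ModularCurve Fermat.Agent.GTor Fermat.Agent.GTor.H81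
  Fermat.Agent.GTor.H58T1 Fermat.Agent.BAD

section Level

variable {N p : ℕ} [NeZero N] [Fact p.Prime] {S : Set ℕ} (C : TateCoords N p S)

/-- the matrix of `g² - T_p g + p` at level `p^k`. -/
def phiK (hp : p.Prime) (hpN : ¬ p ∣ N) (hpS : p ∉ S) (g : GQ) (k : ℕ) :
    Matrix (Fin C.r) (Fin C.r) (ZMod (p ^ k)) :=
  C.ρ k g * C.ρ k g - Mc (ZMod (p ^ k)) C.M (CuspForm.heckeAlgebra.T hp hpN hpS) * C.ρ k g
    + ((p : ℕ) : Matrix (Fin C.r) (Fin C.r) (ZMod (p ^ k)))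

/-- **(ES-p) at level `p^k`**, in coordinates. -/
theorem rho_ESp (hES : Stmt_TorsESp N p) (hp : p.Prime) (hpN : ¬ p ∣ N) (hpS : p ∉ S)
    {A : ValuationSubring (AlgebraicClosure ℚ)} (hA : A.LiesOverPrime p) {g : GQ}
    (hg : A.IsFrobeniusAt g p) (k : ℕ) (x : Fin C.r → ZMod (p ^ k)) :
    (C.θ k).symm ((phiK C hp hpN hpS g k).mulVec x) ∈ k1Sub A N (p ^ k) := by
  obtain ⟨X, rfl⟩ := (C.θ k).surjective x
  set f : AddMonoid.End (Jtor N (p ^ k)) :=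
    TateCoords.galEnd k g * TateCoords.galEnd k g
      - TateCoords.heckeEnd k (⟨p, hp⟩ : Nat.Primes) * TateCoords.galEnd k g
      + ((p : ℕ) : AddMonoid.End (Jtor N (p ^ k))) with hf
  have hn : C.mat k ((p : ℕ) : AddMonoid.End (Jtor N (p ^ k))) =
      ((p : ℕ) : Matrix (Fin C.r) (Fin C.r) (ZMod (p ^ k))) := map_natCast (C.mat k) p
  have hm : C.mat k f = phiK C hp hpN hpS g k := by
    rw [hf, map_add, map_sub, map_mul, map_mul, hn, C.mat_gal, C.mat_hecke k hp hpN hpS]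
    rfl
  rw [← hm, C.mat_mulVec, AddEquiv.symm_apply_apply, mem_k1Sub]
  exact hES hp hpN A hA g hg (p ^ k) (X : JZero N) (pow_nsmul_coe X)

end Level

section Limit

variable {N p : ℕ} [NeZero N] [Fact p.Prime] {S : Set ℕ} {C : TateCoords N p S}
variable {𝒪 : Type} [CommRing 𝒪] [IsLocalRing 𝒪]
  [IsAdicComplete (IsLocalRing.maximalIdeal 𝒪) 𝒪]
  {hp𝒪 : (p : 𝒪) ∈ IsLocalRing.maximalIdeal 𝒪} (L : TateLimit C 𝒪 hp𝒪)

/-- the reduction of vectors modulo `𝔪^k`. -/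
def piVec (𝒪 : Type) [CommRing 𝒪] [IsLocalRing 𝒪] (r k : ℕ) :
    (Fin r → 𝒪) →+ (Fin r → 𝒪 ⧸ IsLocalRing.maximalIdeal 𝒪 ^ k) where
  toFun v := fun i => Ideal.Quotient.mk (IsLocalRing.maximalIdeal 𝒪 ^ k) (v i)
  map_zero' := by
    funext i
    simp
  map_add' v w := by
    funext i
    simp

@[simp] theorem piVec_apply (r k : ℕ) (v : Fin r → 𝒪) (i : Fin r) :
    piVec 𝒪 r k v i = Ideal.Quotient.mk (IsLocalRing.maximalIdeal 𝒪 ^ k) (v i) := rfl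

theorem piVec_mulVec (r k : ℕ) (X : Matrix (Fin r) (Fin r) 𝒪) (v : Fin r → 𝒪) :
    piVec 𝒪 r k (X.mulVec v) =
      ((piK (IsLocalRing.maximalIdeal 𝒪) k).mapMatrix X).mulVec (piVec 𝒪 r k v) := by
  funext i
  exact RingHom.map_mulVec (piK (IsLocalRing.maximalIdeal 𝒪) k) X v i

theorem piVec_smul (r k : ℕ) (a : 𝒪) (v : Fin r → 𝒪) :
    piVec 𝒪 r k (a • v) = (Ideal.Quotient.mk (IsLocalRing.maximalIdeal 𝒪 ^ k) a) •
      piVec 𝒪 r k v := by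
  funext i
  simp

/-- the map `J₀(N)[p^k] → W_k`. -/
def cHom (C : TateCoords N p S) (𝒪 : Type) [CommRing 𝒪] [IsLocalRing 𝒪]
    [IsAdicComplete (IsLocalRing.maximalIdeal 𝒪) 𝒪]
    (hp𝒪 : (p : 𝒪) ∈ IsLocalRing.maximalIdeal 𝒪) (k : ℕ) :
    Jtor N (p ^ k) →+ (Fin C.r → 𝒪 ⧸ IsLocalRing.maximalIdeal 𝒪 ^ k) where
  toFun x := fun i => cK (IsLocalRing.maximalIdeal 𝒪) p hp𝒪 k (C.θ k x i)
  map_zero' := by
    funext i
    simp
  map_add' x y := by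
    funext i
    simp

@[simp] theorem cHom_apply (k : ℕ) (x : Jtor N (p ^ k)) (i : Fin C.r) :
    cHom C 𝒪 hp𝒪 k x i = cK (IsLocalRing.maximalIdeal 𝒪) p hp𝒪 k (C.θ k x i) := rfl

/-- the Galois action on `W_k`. -/
def actW (k : ℕ) (σ : GQ) :
    (Fin C.r → 𝒪 ⧸ IsLocalRing.maximalIdeal 𝒪 ^ k) →+
      (Fin C.r → 𝒪 ⧸ IsLocalRing.maximalIdeal 𝒪 ^ k) :=
  (Matrix.mulVecLin ((piK (IsLocalRing.maximalIdeal 𝒪) k).mapMatrix (L.ρL σ))).toAddMonoidHom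

@[simp] theorem actW_apply (k : ℕ) (σ : GQ)
    (w : Fin C.r → 𝒪 ⧸ IsLocalRing.maximalIdeal 𝒪 ^ k) :
    actW L k σ w = ((piK (IsLocalRing.maximalIdeal 𝒪) k).mapMatrix (L.ρL σ)).mulVec w := rfl

theorem cHom_mulVec (k : ℕ) (X : Matrix (Fin C.r) (Fin C.r) (ZMod (p ^ k)))
    (x : Jtor N (p ^ k)) :
    cHom C 𝒪 hp𝒪 k ((C.θ k).symm (X.mulVec (C.θ k x))) =
      ((cK (IsLocalRing.maximalIdeal 𝒪) p hp𝒪 k).mapMatrix X).mulVec (cHom C 𝒪 hp𝒪 k x) := by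
  funext i
  rw [cHom_apply, AddEquiv.apply_symm_apply]
  exact RingHom.map_mulVec (cK (IsLocalRing.maximalIdeal 𝒪) p hp𝒪 k) X (C.θ k x) i

theorem cHom_gal (k : ℕ) (σ : GQ) (x : Jtor N (p ^ k)) :
    cHom C 𝒪 hp𝒪 k (galAct N p k σ x) = actW L k σ (cHom C 𝒪 hp𝒪 k x) := by
  have h1 : galAct N p k σ x = (C.θ k).symm ((C.ρ k σ).mulVec (C.θ k x)) := by
    apply (C.θ k).injective
    rw [AddEquiv.apply_symm_apply]
    exact C.gal k σ x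
  rw [h1, cHom_mulVec, actW_apply, L.spec σ k]

end Limit

section Span

variable {N p : ℕ} [NeZero N] [Fact p.Prime] {S : Set ℕ} {C : TateCoords N p S}
variable {𝒪 : Type} [CommRing 𝒪] [IsDomain 𝒪] [IsDiscreteValuationRing 𝒪]
  [IsAdicComplete (IsLocalRing.maximalIdeal 𝒪) 𝒪] [Finite (IsLocalRing.ResidueField 𝒪)]
  {hp𝒪 : (p : 𝒪) ∈ IsLocalRing.maximalIdeal 𝒪} (L : TateLimit C 𝒪 hp𝒪)

/-- `𝒪 / 𝔪^k` is finite. -/
theorem finite_quot_pow (𝒪 : Type) [CommRing 𝒪] [IsDomain 𝒪] [IsDiscreteValuationRing 𝒪]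
    [Finite (IsLocalRing.ResidueField 𝒪)] (k : ℕ) :
    Finite (𝒪 ⧸ IsLocalRing.maximalIdeal 𝒪 ^ k) := by
  haveI : Finite (𝒪 ⧸ IsLocalRing.maximalIdeal 𝒪) :=
    inferInstanceAs (Finite (IsLocalRing.ResidueField 𝒪))
  exact Ideal.finite_quotient_pow (IsNoetherian.noetherian _) k

/-- the `𝒪 / 𝔪^k`-span of the image of `K1(p^k)` in `W_k`. -/
def kSpan (C : TateCoords N p S) (𝒪 : Type) [CommRing 𝒪] [IsDomain 𝒪]
    [IsDiscreteValuationRing 𝒪] [IsAdicComplete (IsLocalRing.maximalIdeal 𝒪) 𝒪]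
    [Finite (IsLocalRing.ResidueField 𝒪)]
    (hp𝒪 : (p : 𝒪) ∈ IsLocalRing.maximalIdeal 𝒪)
    (A : ValuationSubring (AlgebraicClosure ℚ)) (k : ℕ) :
    AddSubgroup (Fin C.r → 𝒪 ⧸ IsLocalRing.maximalIdeal 𝒪 ^ k) :=
  haveI := finite_quot_pow 𝒪 k
  letI := Fintype.ofFinite (𝒪 ⧸ IsLocalRing.maximalIdeal 𝒪 ^ k)
  spanSup (R := 𝒪 ⧸ IsLocalRing.maximalIdeal 𝒪 ^ k) (cHom C 𝒪 hp𝒪 k) (k1Sub A N (p ^ k))

theorem smul_cHom_mem_kSpan (A : ValuationSubring (AlgebraicClosure ℚ)) (k : ℕ)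
    (a : 𝒪 ⧸ IsLocalRing.maximalIdeal 𝒪 ^ k) {x : Jtor N (p ^ k)}
    (hx : x ∈ k1Sub A N (p ^ k)) : a • cHom C 𝒪 hp𝒪 k x ∈ kSpan C 𝒪 hp𝒪 A k := by
  haveI := finite_quot_pow 𝒪 k
  letI := Fintype.ofFinite (𝒪 ⧸ IsLocalRing.maximalIdeal 𝒪 ^ k)
  exact smul_mem_spanSup (R := 𝒪 ⧸ IsLocalRing.maximalIdeal 𝒪 ^ k) (cHom C 𝒪 hp𝒪 k)
    (k1Sub A N (p ^ k)) a hx

theorem inertia_subset_decomposition (A : ValuationSubring (AlgebraicClosure ℚ)) :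
    (A.inertiaSubgroupIn ℚ : Set GQ) ⊆ (A.decompositionSubgroup ℚ : Set GQ) := by
  intro σ hσ
  obtain ⟨g, -, rfl⟩ := hσ
  exact g.2

/-- **(NUQ) for the span.** -/
theorem nuq_kSpan (hNUQ : Stmt_K1NoUnr N p) (hp2 : p ≠ 2) (hpN : ¬ p ∣ N) (k : ℕ) :
    NUQ p (actW L k) ((padicPlace p).decompositionSubgroup ℚ : Set GQ)
      ((padicPlace p).inertiaSubgroupIn ℚ : Set GQ) (kSpan C 𝒪 hp𝒪 (padicPlace p) k) := by
  haveI := finite_quot_pow 𝒪 k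
  letI := Fintype.ofFinite (𝒪 ⧸ IsLocalRing.maximalIdeal 𝒪 ^ k)
  refine nuq_span (R := 𝒪 ⧸ IsLocalRing.maximalIdeal 𝒪 ^ k)
    (inertia_subset_decomposition (padicPlace p)) (cHom C 𝒪 hp𝒪 k)
    (fun σ _ x => cHom_gal L k σ x) (fun σ _ a w => ?_)
    (nuq_k1Sub hNUQ hp2 hpN k) (dStable_k1Sub (padicPlace p) k)
  rw [actW_apply, actW_apply, Matrix.mulVec_smul]

/-- **(ES-p) in `W_k`**: `Φ W_k ⊆ kSpan`. -/
theorem phi_mem_kSpan (hES : Stmt_TorsESp N p) (hp : p.Prime) (hpN : ¬ p ∣ N) (hpS : p ∉ S)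
    {A : ValuationSubring (AlgebraicClosure ℚ)} (hA : A.LiesOverPrime p) {g : GQ}
    (hg : A.IsFrobeniusAt g p) (k : ℕ)
    (y : Fin C.r → 𝒪 ⧸ IsLocalRing.maximalIdeal 𝒪 ^ k) :
    ((cK (IsLocalRing.maximalIdeal 𝒪) p hp𝒪 k).mapMatrix (phiK C hp hpN hpS g k)).mulVec y ∈
      kSpan C 𝒪 hp𝒪 A k := by
  classical
  have h1 : y = ∑ i, y i • (Pi.single i (1 : 𝒪 ⧸ IsLocalRing.maximalIdeal 𝒪 ^ k) :
      Fin C.r → 𝒪 ⧸ IsLocalRing.maximalIdeal 𝒪 ^ k) := by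
    funext j
    simp [Finset.sum_apply, Pi.single_apply]
  rw [h1, Matrix.mulVec_sum]
  refine AddSubgroup.sum_mem _ fun i _ => ?_
  rw [Matrix.mulVec_smul]
  -- the basis vector is the image of a torsion point
  set X : Jtor N (p ^ k) := (C.θ k).symm (Pi.single i (1 : ZMod (p ^ k))) with hX
  have hc : cHom C 𝒪 hp𝒪 k X = (Pi.single i (1 : 𝒪 ⧸ IsLocalRing.maximalIdeal 𝒪 ^ k) :
      Fin C.r → 𝒪 ⧸ IsLocalRing.maximalIdeal 𝒪 ^ k) := by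
    funext j
    rw [cHom_apply, hX, AddEquiv.apply_symm_apply]
    by_cases hij : j = i
    · subst hij
      simp
    · simp [Pi.single_apply, hij]
  rw [← hc, ← cHom_mulVec]
  refine smul_cHom_mem_kSpan A k (y i) ?_
  exact rho_ESp C hES hp hpN hpS hA hg k _

end Span

end Fermat.Agent.S59.LGC.H54
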